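/-
Extending invariant homomorphisms from the kernel of a map onto a finite group (owner: helper91).

If `π : G → Q` is onto a finite group whose Sylow `p`-subgroups (`p` odd) are cyclic with a
generator conjugate to its inverse, and `A` is killed by `p`, then every `G`-invariant homomorphism
`ker π → A` extends to `G`.
-/
import Mathlib.GroupTheory.Transfer
import Mathlib.GroupTheory.Sylow
import Mathlib.GroupTheory.OrderOfElement
import Mathlib.Data.ZMod.Basic
import Mathlib.Algebra.Field.ZMod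

set_option autoImplicit false

noncomputable section

namespace Fermat.Agent.CongMod

open Subgroup Function

variable {G Q : Type*} [Group G] [Group Q] (π : G →* Q) {A : Type*} [AddCommGroup A]

/-- `φ` is invariant under conjugation. -/
def IsConjInvariant (φ : Additive π.ker →+ A) : Prop :=
  ∀ (x : G) (k : π.ker), φ (Additive.ofMul ⟨x * k * x⁻¹, (MonoidHom.normal_ker π).conj_mem _ k.2 x⟩)
    = φ (Additive.ofMul k)

variable {π}

theorem IsConjInvariant.eq {φ : Additive π.ker →+ A} (hφ : IsConjInvariant π φ) (x : G)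
    {k k' : π.ker} (h : (k' : G) = x * k * x⁻¹) : φ (Additive.ofMul k') = φ (Additive.ofMul k) := by
  obtain rfl : k' = ⟨x * k * x⁻¹, (MonoidHom.normal_ker π).conj_mem _ k.2 x⟩ := Subtype.ext h
  exact hφ x k

theorem map_mul_eq {φ : Additive π.ker →+ A} {a b c : π.ker} (h : (c : G) = a * b) :
    φ (Additive.ofMul c) = φ (Additive.ofMul a) + φ (Additive.ofMul b) := by
  obtain rfl : c = a * b := Subtype.ext h
  rw [ofMul_mul, map_add]

/-- Powers of `a k` for `k` in the kernel. -/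
theorem exists_mul_pow_eq {φ : Additive π.ker →+ A} (hφ : IsConjInvariant π φ) (a : G)
    (k : π.ker) (n : ℕ) :
    ∃ k' : π.ker, (a * k) ^ n = a ^ n * k' ∧ φ (Additive.ofMul k') = n • φ (Additive.ofMul k) := by
  induction n with
  | zero => exact ⟨1, by simp, by simp⟩
  | succ n ih =>
    obtain ⟨k', hk', hφk'⟩ := ih
    let k'' : π.ker := ⟨a⁻¹ * k' * a,
      by simpa using (MonoidHom.normal_ker π).conj_mem _ k'.2 a⁻¹⟩
    refine ⟨k'' * k, ?_, ?_⟩
    · rw [pow_succ, hk', pow_succ, Subgroup.coe_mul]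
      simp only [k'', mul_assoc, mul_inv_cancel_left]
    · rw [ofMul_mul, map_add, succ_nsmul, ← hφk']
      congr 1
      exact hφ.eq a⁻¹ (by simp [k''])

/-- The power of a lift of an element conjugate to its inverse has zero value. -/
theorem apply_pow_eq_zero {p : ℕ} [hp : Fact p.Prime] (hp2 : p ≠ 2) (hA : ∀ a : A, p • a = 0)
    {φ : Additive π.ker →+ A} (hφ : IsConjInvariant π φ) (hπ : Surjective π) (g : G) (x : Q)
    (hx : x * π g * x⁻¹ = (π g)⁻¹) {n : ℕ} (hn : p ∣ n) (z : π.ker) (hz : (z : G) = g ^ n) :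
    φ (Additive.ofMul z) = 0 := by
  obtain ⟨y, rfl⟩ := hπ x
  let k : π.ker := ⟨g * (y * g * y⁻¹), by
    rw [MonoidHom.mem_ker, map_mul, map_mul, map_mul, map_inv, hx, mul_inv_cancel]⟩
  obtain ⟨k', hk', hφk'⟩ := exists_mul_pow_eq hφ g⁻¹ k n
  have h0 : φ (Additive.ofMul k') = 0 := by
    obtain ⟨m, rfl⟩ := hn
    rw [hφk', mul_comm, mul_nsmul', hA, nsmul_zero]
  let z' : π.ker := ⟨y * z * y⁻¹, (MonoidHom.normal_ker π).conj_mem _ z.2 y⟩
  have e1 : (z' : G) = (z⁻¹ : π.ker) * k' := by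
    rw [Subgroup.coe_inv]
    show y * z * y⁻¹ = _
    rw [hz, ← inv_pow, ← hk', ← conj_pow]
    simp [k]
  have e2 := map_mul_eq (φ := φ) e1
  rw [hφ.eq y (rfl : (z' : G) = y * z * y⁻¹), ofMul_inv, map_neg, h0, add_zero] at e2
  have h2 : (2 : ℕ) • φ (Additive.ofMul z) = 0 := by
    rw [two_nsmul]; exact eq_neg_iff_add_eq_zero.mp e2
  have hcop : Nat.Coprime 2 p := (Nat.coprime_primes Nat.prime_two hp.out).mpr (Ne.symm hp2)
  have ho : addOrderOf (φ (Additive.ofMul z)) ∣ Nat.gcd 2 p :=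
    Nat.dvd_gcd (addOrderOf_dvd_of_nsmul_eq_zero h2) (addOrderOf_dvd_of_nsmul_eq_zero (hA _))
  rw [hcop, Nat.dvd_one, AddMonoid.addOrderOf_eq_one_iff] at ho
  exact ho

/-- **Extension lemma.** -/
theorem exists_hom_extend [Finite Q] {p : ℕ} [hp : Fact p.Prime] (hp2 : p ≠ 2)
    (hA : ∀ a : A, p • a = 0) (hπ : Surjective π) {φ : Additive π.ker →+ A}
    (hφ : IsConjInvariant π φ)
    (hQ : ∀ P : Sylow p Q, ∃ s : Q, Subgroup.zpowers s = (P : Subgroup Q) ∧
      ∃ x : Q, x * s * x⁻¹ = s⁻¹) :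
    ∃ w : Additive G →+ A, ∀ k : π.ker, w (Additive.ofMul (k : G)) = φ (Additive.ofMul k) := by
  classical
  let P : Sylow p Q := Classical.arbitrary _
  obtain ⟨s, hs, x, hx⟩ := hQ P
  -- a lift of the generator, killed by `φ` at its order
  obtain ⟨g, hg, hg0⟩ : ∃ g : G, π g = s ∧
      ∀ z : π.ker, (z : G) = g ^ orderOf s → φ (Additive.ofMul z) = 0 := by
    by_cases h1 : s = 1
    · refine ⟨1, by rw [map_one, h1], fun z hz => ?_⟩
      obtain rfl : z = 1 := Subtype.ext (by simp [hz])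
      rw [ofMul_one, map_zero]
    · obtain ⟨g, rfl⟩ := hπ s
      refine ⟨g, rfl, fun z hz => apply_pow_eq_zero hp2 hA hφ hπ g x hx ?_ z hz⟩
      obtain ⟨a, ha⟩ := IsPGroup.iff_orderOf.mp P.2 ⟨π g, hs ▸ Subgroup.mem_zpowers _⟩
      rw [← Subgroup.orderOf_coe] at ha
      rw [ha]
      refine dvd_pow_self p fun ha0 => h1 ?_
      rwa [ha0, pow_zero, orderOf_eq_one_iff] at ha
  set n := orderOf s
  have hgn : g ^ n ∈ π.ker := by rw [MonoidHom.mem_ker, map_pow, hg, pow_orderOf_eq_one]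
  let z : π.ker := ⟨g ^ n, hgn⟩
  let H : Subgroup G := (P : Subgroup Q).comap π
  have hH : ∀ h : H, ∃ i : ℤ, g ^ (-i) * (h : G) ∈ π.ker := fun h => by
    obtain ⟨i, hi⟩ := Subgroup.mem_zpowers_iff.mp (hs.symm ▸ h.2 : π h ∈ Subgroup.zpowers s)
    exact ⟨i, by rw [MonoidHom.mem_ker, map_mul, map_zpow, hg, ← hi, _root_.zpow_neg,
      inv_mul_cancel]⟩
  choose iOf hiOf using hH
  let ψ0 : H → A := fun h => φ (Additive.ofMul ⟨_, hiOf h⟩)
  -- the value does not depend on the exponent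
  have hψ : ∀ (h : H) (i : ℤ) (k : π.ker), (k : G) = g ^ (-i) * (h : G) →
      φ (Additive.ofMul k) = ψ0 h := by
    intro h i k hk
    have hdiv : (n : ℤ) ∣ iOf h - i := by
      rw [orderOf_dvd_iff_zpow_eq_one, zpow_sub, ← hg, ← map_zpow, ← map_zpow]
      have h1 : (π g) ^ (-i) * π h = 1 := by
        rw [← map_zpow, ← map_mul, ← hk]; exact k.2
      have h2 : (π g) ^ (-iOf h) * π h = 1 := by
        rw [← map_zpow, ← map_mul]; exact hiOf h
      rw [map_zpow, map_zpow]
      rw [_root_.zpow_neg] at h1 h2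
      rw [← eq_inv_of_mul_eq_one_right h1 |>.trans (inv_inv _),
        ← eq_inv_of_mul_eq_one_right h2 |>.trans (inv_inv _), mul_inv_cancel]
    obtain ⟨m, hm⟩ := hdiv
    have e : (k : G) = (z ^ m : π.ker) * (⟨_, hiOf h⟩ : π.ker) := by
      rw [hk, Subgroup.coe_zpow]
      show _ = (g ^ n) ^ m * (g ^ (-iOf h) * (h : G))
      rw [← zpow_natCast, ← _root_.zpow_mul, ← mul_assoc, ← zpow_add, ← hm]
      congr 2; ring
    rw [map_mul_eq e, ofMul_zpow, map_zsmul, hg0 z rfl, smul_zero, zero_add]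
  let ψ : H →* Multiplicative A := MonoidHom.mk' (fun h => Multiplicative.ofAdd (ψ0 h)) (by
    intro h h'
    rw [← ofAdd_add]
    refine congrArg _ ?_
    let k : π.ker := ⟨_, hiOf h⟩
    let k' : π.ker := ⟨_, hiOf h'⟩
    let kc : π.ker := ⟨g ^ (-iOf h') * k * g ^ iOf h', by
      simpa [_root_.zpow_neg] using (MonoidHom.normal_ker π).conj_mem _ k.2 (g ^ (-iOf h'))⟩
    have e : ((kc * k' : π.ker) : G) = g ^ (-(iOf h + iOf h')) * ((h * h' : H) : G) := by
      simp only [Subgroup.coe_mul, kc, k, k']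
      rw [neg_add_rev, zpow_add]
      simp only [mul_assoc, zpow_neg, mul_inv_cancel_left]
    rw [← hψ _ _ _ e, ofMul_mul, map_add]
    exact congrArg (· + _) (hφ.eq (g ^ (-iOf h')) (k := k) (k' := kc) (by simp [kc, _root_.zpow_neg])))
  have hHker : π.ker ≤ H := fun a ha => by
    show π a ∈ (P : Subgroup Q)
    rw [MonoidHom.mem_ker.mp ha]; exact one_mem _
  have hfi : π.ker.FiniteIndex := by
    refine ⟨fun h0 => ?_⟩
    have hc : Finite (G ⧸ π.ker) := Finite.of_equiv Q
      (QuotientGroup.quotientKerEquivOfSurjective π hπ).symm.toEquiv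
    exact Subgroup.index_ne_zero_of_finite (H := π.ker) h0
  have : H.FiniteIndex := Subgroup.finiteIndex_of_le hHker
  have hidx : ¬ p ∣ H.index := by
    rw [Subgroup.index_comap_of_surjective _ hπ]
    exact P.not_dvd_index
  obtain ⟨e, he⟩ := Nat.exists_mul_mod_eq_one_of_coprime
    ((hp.out.coprime_iff_not_dvd.mpr hidx).symm) hp.out.one_lt
  refine ⟨e • MonoidHom.toAdditiveLeft (MonoidHom.transfer ψ), fun k => ?_⟩
  have hker : ∀ (y : G), y * k * y⁻¹ ∈ H := fun y =>
    hHker ((MonoidHom.normal_ker π).conj_mem _ k.2 y)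
  have htr : Multiplicative.toAdd (MonoidHom.transfer ψ (k : G)) =
      H.index • φ (Additive.ofMul k) := by
    let T : H.LeftTransversal := default
    let := H.fintypeQuotientOfFiniteIndex
    rw [MonoidHom.transfer_def ψ T, Subgroup.leftTransversals.diff, toAdd_prod,
      ← Nat.card_eq_fintype_card.symm.trans H.index_eq_card.symm, ← Finset.card_univ,
      ← Finset.sum_const]
    refine Finset.sum_congr rfl fun c _ => ?_
    show ψ0 _ = _
    let t : G := (T.2.leftQuotientEquiv c : G)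
    have hfix : ((k : G))⁻¹ • c = c := by
      induction c using QuotientGroup.induction_on with
      | H y =>
        rw [MulAction.Quotient.smul_coe, QuotientGroup.eq, smul_eq_mul]
        simpa [mul_assoc] using hHker
          ((MonoidHom.normal_ker π).conj_mem _ k.2 y⁻¹)
    refine (hψ _ 0 ⟨t⁻¹ * k * t, by
      simpa using (MonoidHom.normal_ker π).conj_mem _ k.2 t⁻¹⟩ ?_).symm.trans
      (hφ.eq t⁻¹ (by simp))
    show t⁻¹ * k * t = g ^ (-0 : ℤ) * (t⁻¹ * ((((k : G)) • T).2.leftQuotientEquiv c : G))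
    rw [Subgroup.smul_apply_eq_smul_apply_inv_smul, hfix]
    simp [t, mul_assoc]
  show e • Multiplicative.toAdd (MonoidHom.transfer ψ (k : G)) = _
  rw [htr, ← mul_nsmul', ← Nat.mod_add_div (e * H.index) p, add_nsmul, mul_nsmul', hA, add_zero,
    mul_comm e, he.2, one_nsmul]

end Fermat.Agent.CongMod
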