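/-
Sylow `p`-subgroups of `SL(2, 𝔽_q)` for odd `p ≠ q`: cyclic, with generator conjugate to its
inverse (owner: helper91).
-/
import Mathlib.GroupTheory.Sylow
import Mathlib.LinearAlgebra.Matrix.SpecialLinearGroup
import Mathlib.LinearAlgebra.Matrix.ToLinearEquiv
import Mathlib.FieldTheory.IsAlgClosed.AlgebraicClosure
import Mathlib.FieldTheory.Finite.Basic
import Mathlib.RingTheory.IntegralDomain

set_option autoImplicit false

noncomputable section

open Matrix
open scoped MatrixGroups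

namespace Fermat.Agent.CongMod

variable {F : Type*} [Field F]

/-- Cayley–Hamilton in `SL(2)`. -/
theorem sq_eq_trace_smul_sub_one (z : SL(2, F)) :
    (z : Matrix (Fin 2) (Fin 2) F) * z = (z.1 0 0 + z.1 1 1) • z.1 - 1 := by
  have h := z.2
  rw [Matrix.det_fin_two] at h
  ext i j
  fin_cases i <;> fin_cases j <;> simp [Matrix.mul_apply, Fin.sum_univ_two]
  · linear_combination -h
  · ring
  · ring
  · linear_combination -h

theorem trace_sq_ne_four {q p : ℕ} [hq : Fact q.Prime] [hp : Fact p.Prime] (hp2 : p ≠ 2)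
    (hpq : p ≠ q) {z : SL(2, ZMod q)} {a : ℕ} (hord : orderOf z = p ^ a) (hz : z ≠ 1) :
    (z.1 0 0 + z.1 1 1) ^ 2 ≠ 4 := by
  intro h
  set t := z.1 0 0 + z.1 1 1 with ht
  obtain ⟨ε, hε, hε'⟩ : ∃ ε : ZMod q, t = ε + ε ∧ ε * ε = 1 := by
    rcases eq_or_ne (2 : ZMod q) 0 with h2 | h2
    · refine ⟨1, ?_, one_mul 1⟩
      have h4 : t ^ 2 = 0 := by rw [h]; linear_combination (2 : ZMod q) * h2
      rw [pow_eq_zero_iff two_ne_zero] at h4
      rw [h4]; linear_combination -h2
    · refine ⟨t / 2, by field_simp; ring, ?_⟩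
      field_simp
      linear_combination h
  have hnil : (z.1 - ε • 1) * (z.1 - ε • 1) = 0 := by
    rw [Matrix.sub_mul, Matrix.mul_sub, Matrix.mul_sub, sq_eq_trace_smul_sub_one, ← ht, hε,
      Matrix.smul_mul, Matrix.mul_smul, Matrix.mul_one, Matrix.one_mul, Matrix.smul_mul,
      Matrix.one_mul, smul_smul, hε', one_smul, add_smul]
    abel
  have hpow : ∀ n : ℕ, z.1 ^ n = ε ^ n • 1 + (n * ε ^ (n + 1)) • (z.1 - ε • 1) := by
    intro n
    induction n with
    | zero => simp
    | succ n ih =>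
      have hz' : z.1 = ε • 1 + (z.1 - ε • 1) := by abel
      rw [pow_succ, ih]
      conv_lhs => arg 2; rw [hz']
      rw [Matrix.mul_add, Matrix.add_mul, Matrix.add_mul, Matrix.smul_mul, Matrix.smul_mul,
        Matrix.smul_mul, Matrix.smul_mul, hnil, smul_zero, add_zero, Matrix.one_mul, Matrix.one_mul,
        Matrix.mul_smul, Matrix.mul_one, smul_smul, smul_smul]
      rw [add_assoc, ← add_smul]
      congr 2
      · exact (pow_succ ε n).symm
      · push_cast
        linear_combination (-(ε ^ n)) * hε'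
  have hzq : z ^ (2 * q) = 1 := by
    apply Subtype.ext
    rw [Matrix.SpecialLinearGroup.coe_pow, hpow, pow_mul, sq, hε', one_pow, one_smul]
    simp
  have hd : orderOf z ∣ Nat.gcd (p ^ a) (2 * q) :=
    Nat.dvd_gcd hord.dvd (orderOf_dvd_of_pow_eq_one hzq)
  have hcop : (p ^ a).Coprime (2 * q) := Nat.Coprime.pow_left _
    (Nat.Coprime.mul_right ((Nat.coprime_primes hp.out Nat.prime_two).mpr hp2)
      ((Nat.coprime_primes hp.out hq.out).mpr hpq))
  rw [hcop, Nat.dvd_one, orderOf_eq_one_iff] at hd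
  exact hz hd

/-- The commutant of a non-scalar matrix is `F + F z`. -/
theorem exists_eq_smul_add_smul {z s : Matrix (Fin 2) (Fin 2) F}
    (hz : ¬ (z 0 1 = 0 ∧ z 1 0 = 0 ∧ z 0 0 = z 1 1)) (h : s * z = z * s) :
    ∃ x y : F, s = x • 1 + y • z := by
  have h00 := congrFun (congrFun h 0) 0
  have h01 := congrFun (congrFun h 0) 1
  have h10 := congrFun (congrFun h 1) 0
  simp only [Matrix.mul_apply, Fin.sum_univ_two] at h00 h01 h10
  rcases ne_or_eq (z 0 1) 0 with hb | hb
  · refine ⟨s 0 0 - s 0 1 / z 0 1 * z 0 0, s 0 1 / z 0 1, ?_⟩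
    ext i j
    fin_cases i <;> fin_cases j <;> simp <;> field_simp
    · linear_combination -h00
    · linear_combination -h01
  rcases ne_or_eq (z 1 0) 0 with hc | hc
  · refine ⟨s 0 0 - s 1 0 / z 1 0 * z 0 0, s 1 0 / z 1 0, ?_⟩
    ext i j
    fin_cases i <;> fin_cases j <;> simp <;> field_simp
    · linear_combination h00
    · linear_combination h10
  have hd : z 0 0 - z 1 1 ≠ 0 := sub_ne_zero.mpr fun e => hz ⟨hb, hc, e⟩
  rw [hb] at h01
  rw [hc] at h10
  have e01 : s 0 1 = 0 := mul_right_cancel₀ hd (by linear_combination -h01)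
  have e10 : s 1 0 = 0 := mul_right_cancel₀ hd (by linear_combination h10)
  refine ⟨s 0 0 - (s 0 0 - s 1 1) / (z 0 0 - z 1 1) * z 0 0,
    (s 0 0 - s 1 1) / (z 0 0 - z 1 1), ?_⟩
  ext i j
  fin_cases i <;> fin_cases j <;> simp [hb, hc, e01, e10]
  field_simp
  ring

theorem not_scalar_of_trace_sq_ne_four {z : SL(2, F)} (h : (z.1 0 0 + z.1 1 1) ^ 2 ≠ 4) :
    ¬ (z.1 0 1 = 0 ∧ z.1 1 0 = 0 ∧ z.1 0 0 = z.1 1 1) := by
  rintro ⟨hb, hc, e⟩
  have hd := z.2
  rw [Matrix.det_fin_two, hb, hc, e] at hd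
  exact h (by rw [e]; linear_combination 4 * hd)

theorem isCyclic_of_center_ne_four {P : Subgroup SL(2, F)} [Finite P] (z : SL(2, F))
    (hz : (z.1 0 0 + z.1 1 1) ^ 2 ≠ 4) (hc : ∀ s ∈ P, s * z = z * s) : IsCyclic P := by
  classical
  set t := z.1 0 0 + z.1 1 1 with ht
  have hdec : ∀ s : P, ∃ xy : F × F, (s : SL(2, F)).1 = xy.1 • 1 + xy.2 • z.1 := fun s => by
    obtain ⟨x, y, h⟩ := exists_eq_smul_add_smul (not_scalar_of_trace_sq_ne_four hz)
      (show (s : SL(2, F)).1 * z.1 = z.1 * (s : SL(2, F)).1 from congrArg Subtype.val (hc s s.2))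
    exact ⟨(x, y), h⟩
  choose c hc' using hdec
  obtain ⟨lam, hlam⟩ := IsAlgClosed.exists_root
    (Polynomial.X ^ 2 - Polynomial.C (algebraMap F (AlgebraicClosure F) t) * Polynomial.X + 1) (by
      have : (Polynomial.X ^ 2 - Polynomial.C (algebraMap F (AlgebraicClosure F) t) * Polynomial.X
        + 1).natDegree = 2 := by compute_degree!
      intro h0
      rw [Polynomial.degree_eq_natDegree (Polynomial.ne_zero_of_natDegree_gt (n := 1) (by omega)),
        this] at h0
      norm_num at h0)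
  simp only [Polynomial.IsRoot.def, Polynomial.eval_add, Polynomial.eval_sub, Polynomial.eval_pow,
    Polynomial.eval_X, Polynomial.eval_mul, Polynomial.eval_C, Polynomial.eval_one] at hlam
  let ι := algebraMap F (AlgebraicClosure F)
  let ev : P → AlgebraicClosure F := fun s => ι (c s).1 + ι (c s).2 * lam
  have hns := not_scalar_of_trace_sq_ne_four hz
  have huniq : ∀ x y x' y' : F,
      x • (1 : Matrix (Fin 2) (Fin 2) F) + y • z.1 = x' • 1 + y' • z.1 → x = x' ∧ y = y' := by
    intro x y x' y' h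
    have hy : y = y' := by
      by_contra hy
      have hy' : y - y' ≠ 0 := sub_ne_zero.mpr hy
      have h00 := congrFun (congrFun h 0) 0
      have h01 := congrFun (congrFun h 0) 1
      have h10 := congrFun (congrFun h 1) 0
      have h11 := congrFun (congrFun h 1) 1
      simp at h00 h01 h10 h11
      exact hns ⟨h01.resolve_left hy, h10.resolve_left hy,
        mul_left_cancel₀ hy' (by linear_combination h00 - h11)⟩
    subst hy
    have h00 := congrFun (congrFun h 0) 0
    simp at h00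
    exact ⟨h00, rfl⟩
  have hmul : ∀ s u : P, ev (s * u) = ev s * ev u := by
    intro s u
    have h := hc' (s * u)
    rw [Subgroup.coe_mul, Matrix.SpecialLinearGroup.coe_mul, hc' s, hc' u] at h
    obtain ⟨h1, h2⟩ := huniq ((c s).1 * (c u).1 - (c s).2 * (c u).2)
      ((c s).1 * (c u).2 + (c s).2 * (c u).1 + (c s).2 * (c u).2 * t) _ _ (by
        rw [← h]
        simp only [Matrix.add_mul, Matrix.mul_add, Matrix.smul_mul, Matrix.mul_smul, one_mul,
          mul_one, sq_eq_trace_smul_sub_one, ← ht]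
        module)
    simp only [ev, ← h1, ← h2, map_add, map_sub, map_mul]
    linear_combination (-(ι (c s).2 * ι (c u).2)) * hlam
  have hone : ev 1 = 1 := by
    have h := hc' 1
    obtain ⟨h1, h2⟩ := huniq 1 0 _ _ (by rw [← h]; simp)
    simp [ev, ← h1, ← h2]
  have hinj : Function.Injective (⟨⟨ev, hone⟩, hmul⟩ : P →* AlgebraicClosure F) := by
    have h1 : ∀ s : P, ev s = 1 → s = 1 := by
      intro s hs
      have hdet := (s : SL(2, F)).2
      rw [hc' s, Matrix.det_fin_two] at hdet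
      simp at hdet
      have hzd := z.2
      rw [Matrix.det_fin_two] at hzd
      have hq : (c s).1 ^ 2 + t * (c s).1 * (c s).2 + (c s).2 ^ 2 = 1 := by
        rw [ht]; linear_combination hdet - (c s).2 ^ 2 * hzd
      have hq' := congrArg ι hq
      simp only [map_add, map_mul, map_pow, map_one] at hq'
      have hs' : ι (c s).1 + ι (c s).2 * lam = 1 := hs
      have hother : ι (c s).1 + ι (c s).2 * (ι t - lam) = 1 := by
        linear_combination hq' - (ι (c s).1 + ι (c s).2 * (ι t - lam)) * hs'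
          - (ι (c s).2) ^ 2 * hlam
      have hy : ι (c s).2 = 0 := by
        have h0 : ι (c s).2 * (2 * lam - ι t) = 0 := by linear_combination hs' - hother
        refine (mul_eq_zero.mp h0).resolve_right fun h2 => hz ?_
        apply (algebraMap F (AlgebraicClosure F)).injective
        rw [map_pow, map_ofNat]
        linear_combination (-4 : AlgebraicClosure F) * hlam + (2 * lam - ι t) * h2
      have hy0 : (c s).2 = 0 := ι.injective (by rw [hy, map_zero])
      have hx0 : (c s).1 = 1 := ι.injective (by rw [map_one]; linear_combination hs' - lam * hy)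
      exact Subtype.ext (Subtype.ext (by simp [hc' s, hy0, hx0]))
    intro s u h
    have h' : ev (s⁻¹ * u) = 1 := by
      rw [hmul, show ev u = ev s from (congrArg id h).symm, ← hmul, inv_mul_cancel, hone]
    exact inv_mul_eq_one.mp (h1 _ h')
  exact isCyclic_of_injective_ringHom _ hinj

theorem exists_conj_eq_inv_zmodTwo (s : SL(2, ZMod 2)) : ∃ x, x * s * x⁻¹ = s⁻¹ := by
  revert s
  decide

/-- A semisimple regular element of `SL(2, 𝔽_q)` is conjugate to its inverse. -/
theorem exists_conj_eq_inv {q : ℕ} [hq : Fact q.Prime] (s : SL(2, ZMod q))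
    (hs : (s.1 0 0 + s.1 1 1) ^ 2 ≠ 4) : ∃ x, x * s * x⁻¹ = s⁻¹ := by
  rcases eq_or_ne q 2 with rfl | hq2
  · exact exists_conj_eq_inv_zmodTwo s
  have h2 : (2 : ZMod q) ≠ 0 := by
    have : ((2 : ℕ) : ZMod q) ≠ 0 := by
      rw [Ne, ZMod.natCast_eq_zero_iff]
      exact fun h => hq2 ((Nat.prime_dvd_prime_iff_eq hq.out Nat.prime_two).mp h)
    simpa using this
  have hdet := s.2
  rw [Matrix.det_fin_two] at hdet
  set a := s.1 0 0 with ha
  set b := s.1 0 1 with hb'
  set c := s.1 1 0 with hc'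
  set d := s.1 1 1 with hd'
  -- a traceless `x` with `tr (x s) = 0`
  suffices ∃ X Y Z : ZMod q, X * (a - d) + Y * c + Z * b = 0 ∧ -(X * X) - Y * Z = 1 by
    obtain ⟨X, Y, Z, h1, h2⟩ := this
    let x : SL(2, ZMod q) :=
      ⟨!![X, Y; Z, -X], by rw [Matrix.det_fin_two_of]; linear_combination h2⟩
    refine ⟨x, mul_inv_eq_iff_eq_mul.mpr ?_⟩
    apply Subtype.ext
    rw [Matrix.SpecialLinearGroup.coe_mul, Matrix.SpecialLinearGroup.coe_mul,
      Matrix.SpecialLinearGroup.coe_inv, Matrix.adjugate_fin_two]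
    ext i j
    fin_cases i <;> fin_cases j <;>
      simp [x, Matrix.mul_apply, Fin.sum_univ_two, ← ha, ← hb', ← hc', ← hd']
    · linear_combination h1
    · ring
    · ring
    · linear_combination h1
  rcases eq_or_ne c 0 with hc | hc
  · have had : a - d ≠ 0 := by
      intro h
      refine hs ?_
      rw [hc, mul_zero, sub_zero] at hdet
      linear_combination (a - d) * h + 4 * hdet
    refine ⟨-b / (a - d), -1 - (b / (a - d)) ^ 2, 1, ?_, ?_⟩
    · rw [hc]; field_simp; ring
    · ring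
  · -- eliminate `Y` and complete the square
    have hD : (a + d) ^ 2 - 4 ≠ 0 := sub_ne_zero.mpr hs
    set D := ((a - d) ^ 2 + 4 * b * c) / (4 * c ^ 2) with hDdef
    have hD0 : D ≠ 0 := by
      refine div_ne_zero (fun h => hD ?_) (mul_ne_zero ?_ (pow_ne_zero _ hc))
      · linear_combination h + 4 * hdet
      · intro h; exact h2 (mul_left_cancel₀ h2 (by linear_combination h))
    obtain ⟨u, Z, huZ⟩ := FiniteField.exists_root_sum_quadratic
      (f := (-Polynomial.X ^ 2 - 1 : Polynomial (ZMod q))) (g := Polynomial.C D * Polynomial.X ^ 2)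
      (by
        rw [show (-Polynomial.X ^ 2 - 1 : Polynomial (ZMod q)) = -(Polynomial.X ^ 2 + Polynomial.C 1)
          by rw [map_one]; ring, Polynomial.degree_neg, Polynomial.degree_X_pow_add_C (by norm_num)]
        rfl)
      (by rw [Polynomial.degree_C_mul_X_pow 2 hD0]; rfl)
      (by rw [ZMod.card]; exact Nat.odd_iff.mp (hq.out.odd_of_ne_two hq2))
    simp only [Polynomial.eval_sub, Polynomial.eval_neg, Polynomial.eval_pow, Polynomial.eval_X,
      Polynomial.eval_one, Polynomial.eval_mul, Polynomial.eval_C] at huZ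
    set X := u + (a - d) * Z / (2 * c) with hX
    refine ⟨X, -((a - d) * X + Z * b) / c, Z, by field_simp; ring, ?_⟩
    rw [hDdef] at huZ
    rw [hX]
    have h4 : (4 : ZMod q) ≠ 0 := fun h => h2 (mul_left_cancel₀ h2 (by linear_combination h))
    field_simp at huZ ⊢
    linear_combination huZ

/-- **The hypothesis of `exists_hom_extend` for `SL(2, 𝔽_q)`.** -/
theorem exists_generator_sylow {q p : ℕ} [hq : Fact q.Prime] [hp : Fact p.Prime] (hp2 : p ≠ 2)
    (hpq : p ≠ q) (P : Sylow p SL(2, ZMod q)) :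
    ∃ s, Subgroup.zpowers s = (P : Subgroup SL(2, ZMod q)) ∧ ∃ x, x * s * x⁻¹ = s⁻¹ := by
  rcases subsingleton_or_nontrivial (P : Subgroup SL(2, ZMod q)) with h | h
  · exact ⟨1, by rw [Subgroup.zpowers_one_eq_bot, (P : Subgroup SL(2, ZMod q)).eq_bot_of_subsingleton], 1, by simp⟩
  have := P.2.center_nontrivial
  obtain ⟨⟨⟨z, hzP⟩, hzc⟩, hz1⟩ := exists_ne (1 : Subgroup.center (P : Subgroup SL(2, ZMod q)))
  have hzne : z ≠ 1 := fun e => hz1 (Subtype.ext (Subtype.ext e))
  obtain ⟨a, ha⟩ := IsPGroup.iff_orderOf.mp P.2 ⟨z, hzP⟩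
  rw [← Subgroup.orderOf_coe] at ha
  have hz4 := trace_sq_ne_four hp2 hpq ha hzne
  have hcyc : IsCyclic (P : Subgroup SL(2, ZMod q)) := isCyclic_of_center_ne_four z hz4
    fun s hs => congrArg Subtype.val (Subgroup.mem_center_iff.mp hzc ⟨s, hs⟩)
  obtain ⟨s, hs⟩ := (Subgroup.isCyclic_iff_exists_zpowers_eq_top _).mp hcyc
  have hsP : s ∈ (P : Subgroup SL(2, ZMod q)) := hs ▸ Subgroup.mem_zpowers s
  have hs1 : s ≠ 1 := fun e => hzne (by
    have hz' : z ∈ Subgroup.zpowers s := hs.symm ▸ hzP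
    simpa [e] using hz')
  obtain ⟨b, hb⟩ := IsPGroup.iff_orderOf.mp P.2 ⟨s, hsP⟩
  rw [← Subgroup.orderOf_coe] at hb
  exact ⟨s, hs, exists_conj_eq_inv s (trace_sq_ne_four hp2 hpq hb hs1)⟩

end Fermat.Agent.CongMod
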