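/-
Identities between the degeneracy maps `res`, `res₂`, `cor` (`Fermat.Agent.LR`) and the Hecke
operators `heckeHom` (`Fermat.Agent.HK`) on homomorphisms `Γ₀(N) → A` (owner: helper91).

* `cor_res`               : `cor ∘ res = index`;
* `heckeHom_eq_heckeDeg`  : `T_q = cor ∘ res₂` for `q ∤ N`;
* `heckeHom_res`          : `U_q ∘ res = res ∘ T_q - res₂` for `q ∤ N`, from level `N` to `N q`;
* `heckeHom_res₂`         : `U_q ∘ res₂ = q • res`;
* `heckeHom_res_comm`, `heckeHom_res₂_comm` : `T_l` commutes with both maps for `l ≠ q`;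
* `cor_res₂_res₂`         : `cor ∘ res₂ ∘ res₂ = res₂ ∘ T_q - res` for `q ∤ N`, at level `N q`.
-/
import Fermat.Agent.LR.Degeneracy
import Fermat.Agent.HK.HeckeHom
import Fermat.Agent.HK.HeckeStar

set_option autoImplicit false

noncomputable section

open CongruenceSubgroup Function Matrix
open scoped MatrixGroups

namespace Fermat.Agent.CongMod

open LR HK

variable {A : Type*} [AddCommGroup A] {N q : ℕ}

/-- The matrix underlying an element of `Γ₀(N)`. -/
abbrev matOf (g : Gamma0 N) : Matrix (Fin 2) (Fin 2) ℤ :=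
  ((g : SL(2, ℤ)) : Matrix (Fin 2) (Fin 2) ℤ)

/-- `diag(q, 1)`. -/
abbrev diagMat (q : ℕ) : Matrix (Fin 2) (Fin 2) ℤ := !![(q : ℤ), 0; 0, 1]

theorem matOf_mul (g h : Gamma0 N) : matOf (g * h) = matOf g * matOf h := by
  simp [matOf]

theorem eq_of_matOf_eq {g h : Gamma0 N} (e : matOf g = matOf h) : g = h :=
  Subtype.ext (Subtype.ext e)

theorem mul_left_cancel_diag {q : ℕ} (hq : q ≠ 0) {a b : Matrix (Fin 2) (Fin 2) ℤ}
    (h : a * diagMat q = b * diagMat q) : a = b := by
  have h' := congrArg (· * (diagMat q).adjugate) h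
  simp only [Matrix.mul_assoc, Matrix.mul_adjugate, Matrix.mul_smul, Matrix.mul_one] at h'
  refine smul_right_injective _ ?_ h'
  simpa [Matrix.det_fin_two_of] using hq

theorem matOf_deltaGamma0 (γ : Gamma0 (N * q)) :
    matOf (deltaGamma0 N q γ) * diagMat q = diagMat q * matOf γ := by
  have h := lowerLeft_eq_mul N q γ
  show (deltaSL N q γ).1 * diagMat q = diagMat q * (γ : SL(2, ℤ)).1
  ext i j
  fin_cases i <;> fin_cases j <;> simp [deltaSL, Matrix.mul_apply, Fin.sum_univ_two] <;>
    first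
      | exact mul_comm _ _
      | exact (mul_comm _ _).trans h.symm

theorem matOf_inclGamma0 (γ : Gamma0 (N * q)) : matOf (inclGamma0 N q γ) = matOf γ := rfl

/-- The transfer `cor` computed from any representatives of `Γ₀(Nq) \ Γ₀(N)`. -/
theorem cor_apply [NeZero N] [NeZero q] {ι : Type*} [Fintype ι] (c : ι → Gamma0 N)
    (hc : Bijective fun i => (((c i)⁻¹ : Gamma0 N) : Gamma0 N ⧸ levelSub N q))
    (φ : Hom1 (N * q) A) (g : Gamma0 N) (σ : ι → ι)
    (h : ∀ i, c i * g * (c (σ i))⁻¹ ∈ levelSub N q) :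
    cor N q φ (Additive.ofMul g) =
      ∑ i, φ (Additive.ofMul ⟨((c i * g * (c (σ i))⁻¹ : Gamma0 N) : SL(2, ℤ)), h i⟩) := by
  apply Multiplicative.ofAdd.injective
  show MonoidHom.transfer (levelSubHom N q φ) g = _
  rw [ofAdd_sum, transfer_eq_prod_reps _ c hc g σ h]
  rfl

/-- `cor ∘ res` is multiplication by the index. -/
theorem cor_res [NeZero N] [NeZero q] {ι : Type*} [Fintype ι] (c : ι → Gamma0 N)
    (hc : Bijective fun i => (((c i)⁻¹ : Gamma0 N) : Gamma0 N ⧸ levelSub N q)) (φ : Hom1 N A) :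
    cor N q (res N q φ) = Fintype.card ι • φ := by
  refine AddMonoidHom.ext fun g => ?_
  obtain ⟨g, rfl⟩ := Additive.ofMul.surjective g
  rw [cor_apply c hc _ g (repPerm c hc g) (repPerm_mem c hc g)]
  have e : ∀ i, res N q φ
      (Additive.ofMul ⟨((c i * g * (c (repPerm c hc g i))⁻¹ : Gamma0 N) : SL(2, ℤ)),
        repPerm_mem c hc g i⟩) =
      φ (Additive.ofMul (c i)) + φ (Additive.ofMul g) - φ (Additive.ofMul (c (repPerm c hc g i))) := by
    intro i
    show φ (Additive.ofMul (c i * g * (c (repPerm c hc g i))⁻¹)) = _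
    rw [ofMul_mul, ofMul_mul, ofMul_inv, map_add, map_add, map_neg, sub_eq_add_neg]
  simp only [e, Finset.sum_sub_distrib, Finset.sum_add_distrib,
    Equiv.sum_comp (repPerm c hc g) (fun i => φ (Additive.ofMul (c i))), Finset.sum_const,
    Finset.card_univ, add_sub_cancel_left, AddMonoidHom.smul_apply]

/-- The index of `Γ₀(Nq)` in `Γ₀(N)` is `q + 1` for a prime `q ∤ N`. -/
theorem cor_res_of_not_dvd [NeZero N] [NeZero q] (hq : q.Prime) (hqN : ¬ q ∣ N) (φ : Hom1 N A) :
    cor N q (res N q φ) = (q + 1) • φ := by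
  rw [cor_res (starRepFull N hq hqN) (starRepFull_bijective N hq hqN), Fintype.card_option,
    Fintype.card_fin]

/-- The index of `Γ₀(Nq)` in `Γ₀(N)` is `q` for a prime `q ∣ N`. -/
theorem cor_res_of_dvd [NeZero N] [NeZero q] (hq : q.Prime) (hqN : q ∣ N) (φ : Hom1 N A) :
    cor N q (res N q φ) = q • φ := by
  rw [cor_res (fun j : Fin q => starRep N (j : ℤ)) (starRep_bijective N hq hqN), Fintype.card_fin]

theorem res_heckeDeg_eq [NeZero N] [NeZero q] (φ : Hom1 N A) :
    cor N q (res₂ N q φ) = heckeDeg N q φ := rfl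

/-- `T_q = cor ∘ res₂` for a prime `q ∤ N`. -/
theorem heckeHom_eq_heckeDeg [NeZero N] [NeZero q] [hq : Fact q.Prime] (hqN : ¬ q ∣ N)
    {R : Type*} [Semiring R] [Module R A] (φ : Hom1 N A) :
    heckeHom N q R A φ = heckeDeg N q φ := by
  set c := starRepFull N hq.out hqN
  have hc := starRepFull_bijective N hq.out hqN
  have hrep : ∀ i, ∃ (j : HeckeIdx N q) (h : Gamma0 N),
      matOf h * heckeMat j = diagMat q * matOf (c i) := fun i =>
    exists_eq_mul_heckeMat
      (by rw [Matrix.det_mul, Matrix.det_fin_two_of, (c i : SL(2, ℤ)).2]; simp)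
      (by simpa [Matrix.mul_apply, Fin.sum_univ_two] using Gamma0.dvd_one_zero (c i))
      (fun h => absurd h hqN)
  choose π u hu using hrep
  have hinj : Injective π := by
    intro i i' e
    refine hc.1 (QuotientGroup.eq.mpr ?_)
    -- `(u i (u i')⁻¹) diag = diag (c i c i'⁻¹)` forces `q` to divide the lower left entry
    rw [inv_inv]
    set w := u i * (u i')⁻¹
    have hw : matOf w * diagMat q = diagMat q * matOf (c i * (c i')⁻¹) := by
      have h1 := hu i
      rw [e] at h1
      have h2 : matOf (u i) = matOf w * matOf (u i') := by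
        rw [← matOf_mul]; simp [w]
      rw [h2, Matrix.mul_assoc, hu i', ← Matrix.mul_assoc] at h1
      have h3 := congrArg (· * matOf (c i')⁻¹) h1
      simp only [Matrix.mul_assoc, ← matOf_mul, mul_inv_cancel] at h3
      simpa [matOf] using h3
    rw [mem_gamma0Sub_iff]
    obtain ⟨k, hk⟩ := Gamma0.dvd_one_zero w
    refine ⟨k, ?_⟩
    have : (matOf (c i * (c i')⁻¹)) 1 0 = (N : ℤ) * q * k := by
      have h10' := congrFun (congrFun hw 1) 0
      simp [Matrix.mul_apply, Fin.sum_univ_two, matOf] at h10' ⊢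
      rw [← h10', hk]; ring
    push_cast
    simpa [matOf] using this
  have hbij : Bijective π := (Fintype.bijective_iff_injective_and_card π).mpr ⟨hinj,
    (Fintype.card_congr (Equiv.subtypeUnivEquiv
      (p := fun i : Option (Fin q) => q ∣ N → i.isSome) fun i h => absurd h hqN)).symm⟩
  refine AddMonoidHom.ext fun g => ?_
  obtain ⟨g, rfl⟩ := Additive.ofMul.surjective g
  rw [← res_heckeDeg_eq, cor_apply c hc _ g (repPerm c hc g) (repPerm_mem c hc g)]
  refine heckeHom_apply_eq_of_reps (Equiv.ofBijective π hbij) u φ g (repPerm c hc g) _ fun i => ?_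
  show matOf (deltaGamma0 N q ⟨_, repPerm_mem c hc g i⟩) *
      (matOf (u (repPerm c hc g i)) * heckeMat (π (repPerm c hc g i))) =
    matOf (u i) * heckeMat (π i) * matOf g
  rw [hu, hu, ← Matrix.mul_assoc, matOf_deltaGamma0, Matrix.mul_assoc, Matrix.mul_assoc]
  congr 1
  show matOf (c i * g * (c (repPerm c hc g i))⁻¹) * matOf (c (repPerm c hc g i)) =
    matOf (c i) * matOf g
  rw [← matOf_mul, ← matOf_mul, inv_mul_cancel_right]

/-! ### `U_q` and the degeneracy maps -/

/-- The indices of `U_q`. -/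
def upperEquiv {M : ℕ} (h : q ∣ M) : Fin q ≃ HeckeIdx M q where
  toFun j := HeckeIdx.upper M j
  invFun i := i.1.get (i.2 h)
  left_inv _ := rfl
  right_inv _ := Subtype.ext (Option.some_get _)

theorem upper_invFun {M : ℕ} (h : q ∣ M) (i : HeckeIdx M q) :
    HeckeIdx.upper M ((upperEquiv h).symm i) = i :=
  (upperEquiv h).apply_symm_apply i

/-- The permutation of the indices of `U_q`, on `Fin q`. -/
def upperNext [Fact q.Prime] {M : ℕ} (h : q ∣ M) (g : Gamma0 M) : Equiv.Perm (Fin q) :=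
  ((upperEquiv h).trans (heckePerm g)).trans (upperEquiv h).symm

theorem upper_upperNext [Fact q.Prime] {M : ℕ} (h : q ∣ M) (g : Gamma0 M) (j : Fin q) :
    HeckeIdx.upper M (upperNext h g j) = heckeNext g (HeckeIdx.upper M j) :=
  upper_invFun h _

/-- `U_q ∘ res = res ∘ T_q - res₂`. -/
theorem heckeHom_res [Fact q.Prime] (hqN : ¬ q ∣ N) {R : Type*} [Semiring R] [Module R A]
    (φ : Hom1 N A) :
    heckeHom (N * q) q R A (res N q φ) + res₂ N q φ = res N q (heckeHom N q R A φ) := by
  have hqM : q ∣ N * q := dvd_mul_left q N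
  refine AddMonoidHom.ext fun g => ?_
  obtain ⟨g, rfl⟩ := Additive.ofMul.surjective g
  rw [AddMonoidHom.add_apply, res_apply, res₂_apply, heckeHom_apply, ← (upperEquiv hqM).sum_comp]
  symm
  refine (heckeHom_apply_eq_of_reps (R := R)
    (Equiv.subtypeUnivEquiv (p := fun i : Option (Fin q) => q ∣ N → i.isSome)
      fun i h => absurd h hqN).symm (fun _ => 1) φ (inclGamma0 N q g)
    (fun i => i.map (upperNext hqM g))
    (fun i => i.elim (deltaGamma0 N q g)
      fun j => inclGamma0 N q (heckeCoc g (HeckeIdx.upper (N * q) j))) fun i => ?_).trans ?_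
  · cases i with
    | none =>
      simp only [OneMemClass.coe_one, Matrix.SpecialLinearGroup.coe_one, one_mul, Option.map_none,
        Option.elim_none]
      exact matOf_deltaGamma0 g
    | some j =>
      simp only [OneMemClass.coe_one, Matrix.SpecialLinearGroup.coe_one, one_mul, Option.map_some,
        Option.elim_some]
      have e := heckeCoc_mul_heckeMat g (HeckeIdx.upper (N * q) j)
      rw [← upper_upperNext hqM g j] at e
      exact e
  · rw [Fintype.sum_option, add_comm]
    rfl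

/-- `U_q ∘ res₂ = q • res`. -/
theorem heckeHom_res₂ [hq : Fact q.Prime] {R : Type*} [Semiring R] [Module R A] (φ : Hom1 N A) :
    heckeHom (N * q) q R A (res₂ N q φ) = q • res N q φ := by
  have hqM : q ∣ N * q := dvd_mul_left q N
  refine AddMonoidHom.ext fun g => ?_
  obtain ⟨g, rfl⟩ := Additive.ofMul.surjective g
  rw [AddMonoidHom.smul_apply, res_apply, heckeHom_apply, ← (upperEquiv hqM).sum_comp]
  let t : Fin q → Gamma0 N := fun j =>
    ⟨ModularGroup.T ^ ((j : ℕ) : ℤ), by
      refine Gamma0_mem.mpr ?_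
      rw [ModularGroup.coe_T_zpow]
      simp⟩
  have ht : ∀ j, matOf (t j) = !![1, ((j : ℕ) : ℤ); 0, 1] := fun j => ModularGroup.coe_T_zpow _
  have hdiag : ∀ j : Fin q, diagMat q * heckeMat (HeckeIdx.upper (N * q) j) =
      (q : ℤ) • matOf (t j) := fun j => by
    rw [ht]
    ext r c
    fin_cases r <;> fin_cases c <;> simp [Matrix.mul_apply, Fin.sum_univ_two]
  have key : ∀ j, deltaGamma0 N q (heckeCoc g (HeckeIdx.upper (N * q) j)) =
      t j * inclGamma0 N q g * (t (upperNext hqM g j))⁻¹ := fun j => by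
    rw [eq_mul_inv_iff_mul_eq]
    refine eq_of_matOf_eq ?_
    rw [matOf_mul, matOf_mul, matOf_inclGamma0]
    refine smul_right_injective (Matrix (Fin 2) (Fin 2) ℤ)
      (by exact_mod_cast hq.out.ne_zero : (q : ℤ) ≠ 0) ?_
    show (q : ℤ) • (_ * _) = (q : ℤ) • (_ * _)
    rw [← Matrix.mul_smul, ← hdiag, ← Matrix.smul_mul, ← hdiag, ← Matrix.mul_assoc,
      matOf_deltaGamma0, Matrix.mul_assoc, Matrix.mul_assoc, upper_upperNext hqM g j]
    exact congrArg _ (heckeCoc_mul_heckeMat g _)
  refine (Finset.sum_congr rfl fun j _ => congrArg φ (congrArg Additive.ofMul (key j))).trans ?_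
  simp only [ofMul_mul, ofMul_inv, map_add, map_neg, Finset.sum_add_distrib, Finset.sum_neg_distrib,
    Equiv.sum_comp (upperNext hqM g) (fun i => φ (Additive.ofMul (t i))), Finset.sum_const,
    Finset.card_univ, Fintype.card_fin]
  abel

/-! ### `T_l` commutes with the degeneracy maps -/

variable {l : ℕ}

theorem dvd_mul_right_iff [hl : Fact l.Prime] (hlq : ¬ l ∣ q) : l ∣ N * q ↔ l ∣ N :=
  ⟨fun h => (hl.out.dvd_mul.mp h).resolve_right hlq, fun h => h.mul_right q⟩

/-- The indices of `T_l` do not change when the level is multiplied by `q`, `l ∤ q`. -/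
def idxLevel [hl : Fact l.Prime] (hlq : ¬ l ∣ q) : HeckeIdx (N * q) l ≃ HeckeIdx N l :=
  Equiv.subtypeEquivRight fun _ => ⟨fun h h' => h ((dvd_mul_right_iff hlq).mpr h'),
    fun h h' => h ((dvd_mul_right_iff hlq).mp h')⟩

theorem heckeMat_idxLevel [Fact l.Prime] (hlq : ¬ l ∣ q) (i : HeckeIdx (N * q) l) :
    heckeMat (idxLevel hlq i) = heckeMat i := rfl

/-- `T_l` commutes with `res`. -/
theorem heckeHom_res_comm [Fact l.Prime] (hlq : ¬ l ∣ q) {R : Type*} [Semiring R] [Module R A]
    (φ : Hom1 N A) :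
    heckeHom (N * q) l R A (res N q φ) = res N q (heckeHom N l R A φ) := by
  refine AddMonoidHom.ext fun g => ?_
  obtain ⟨g, rfl⟩ := Additive.ofMul.surjective g
  rw [res_apply, heckeHom_apply, heckeHom_apply]
  refine Eq.trans ?_ ((idxLevel (N := N) (q := q) hlq).sum_comp
    fun i => φ (Additive.ofMul (heckeCoc (inclGamma0 N q g) i)))
  refine Finset.sum_congr rfl fun i _ => ?_
  have e := heckeNext_heckeCoc_eq (g := inclGamma0 N q g) (i := idxLevel hlq i)
    (i' := idxLevel hlq (heckeNext g i)) (h := inclGamma0 N q (heckeCoc g i))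
    (heckeCoc_mul_heckeMat g i)
  rw [e.2]
  rfl

/-- `j ↦ q j` on the indices of `T_l`, `l ∤ q`. -/
def scaleIdx [hl : Fact l.Prime] (hlq : ¬ l ∣ q) : Equiv.Perm (Fin l) :=
  Equiv.ofBijective (fun j => ⟨(q * j) % l, Nat.mod_lt _ hl.out.pos⟩)
    (Finite.injective_iff_bijective.mp fun i j h => by
      have h' : q * (i : ℕ) ≡ q * (j : ℕ) [MOD l] := congrArg Fin.val h
      refine Fin.ext (Nat.ModEq.eq_of_lt_of_lt ?_ i.isLt j.isLt)
      exact h'.cancel_left_of_coprime ((hl.out.coprime_iff_not_dvd).mpr hlq))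

/-- The index bijection for `T_l` induced by conjugation by `diag(q, 1)`. -/
def idxScale [Fact l.Prime] (hlq : ¬ l ∣ q) : HeckeIdx (N * q) l ≃ HeckeIdx N l :=
  (Equiv.subtypeEquiv (q := fun i : Option (Fin l) => l ∣ N * q → i.isSome)
    (Equiv.optionCongr (scaleIdx hlq)) fun o => by cases o <;> simp).trans (idxLevel hlq)

theorem idxScale_upper [hl : Fact l.Prime] (hlq : ¬ l ∣ q) (j : Fin l) :
    idxScale hlq (HeckeIdx.upper (N * q) j) =
      HeckeIdx.upper N ⟨(q * j) % l, Nat.mod_lt _ hl.out.pos⟩ := rfl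

theorem idxScale_diag [Fact l.Prime] (hlq : ¬ l ∣ q) (h : ¬ l ∣ N * q) :
    idxScale hlq (HeckeIdx.diag h) = HeckeIdx.diag fun h' => h (h'.mul_right q) := rfl

/-- `T_l` commutes with `res₂`. -/
theorem heckeHom_res₂_comm [Fact l.Prime] [NeZero q] (hlq : ¬ l ∣ q) {R : Type*} [Semiring R]
    [Module R A] (φ : Hom1 N A) :
    heckeHom (N * q) l R A (res₂ N q φ) = res₂ N q (heckeHom N l R A φ) := by
  refine AddMonoidHom.ext fun g => ?_
  obtain ⟨g, rfl⟩ := Additive.ofMul.surjective g
  rw [res₂_apply, heckeHom_apply]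
  have hrep : ∀ i : HeckeIdx (N * q) l, ∃ h : Gamma0 N,
      matOf h * heckeMat (idxScale hlq i) * diagMat q = diagMat q * heckeMat i := by
    intro i
    refine HeckeIdx.cases_upper_diag (fun j => ?_) (fun h => ?_) i
    · refine ⟨⟨ModularGroup.T ^ (((q * j) / l : ℕ) : ℤ), Gamma0_mem.mpr ?_⟩, ?_⟩
      · simp [ModularGroup.coe_T_zpow]
      show (ModularGroup.T ^ _ : SL(2, ℤ)).1 * _ * _ = _
      rw [ModularGroup.coe_T_zpow, idxScale_upper]
      ext r c
      fin_cases r <;> fin_cases c <;> simp [Matrix.mul_apply, Fin.sum_univ_two]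
      exact_mod_cast (by rw [mul_comm ((q * (j : ℕ)) / l)]; exact Nat.mod_add_div (q * j) l)
    · refine ⟨1, ?_⟩
      rw [idxScale_diag]
      ext r c
      fin_cases r <;> fin_cases c <;> simp [matOf, Matrix.mul_apply, Fin.sum_univ_two, mul_comm]
  choose u hu using hrep
  rw [← (idxScale hlq).symm.sum_comp]
  refine Eq.trans ?_ (heckeHom_apply_eq_of_reps (R := R) (idxScale hlq) u φ
    (deltaGamma0 N q g) (heckeNext g) (fun i => deltaGamma0 N q (heckeCoc g i)) fun i => ?_).symm
  · exact (idxScale hlq).symm.sum_comp fun i => φ (Additive.ofMul (deltaGamma0 N q (heckeCoc g i)))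
  · refine mul_left_cancel_diag (NeZero.ne q) ?_
    show matOf (deltaGamma0 N q (heckeCoc g i)) *
        (matOf (u (heckeNext g i)) * heckeMat (idxScale hlq (heckeNext g i))) * diagMat q =
      matOf (u i) * heckeMat (idxScale hlq i) * matOf (deltaGamma0 N q g) * diagMat q
    rw [Matrix.mul_assoc, hu, ← Matrix.mul_assoc, matOf_deltaGamma0, Matrix.mul_assoc,
      heckeCoc_mul_heckeMat, Matrix.mul_assoc (matOf (u i) * _) _ (diagMat q), matOf_deltaGamma0,
      ← Matrix.mul_assoc, ← Matrix.mul_assoc, hu]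

/-! ### `cor ∘ res₂ ∘ res₂` -/

/-- Representatives of `Γ₀(Nq) \ Γ₀(N)` with the Atkin–Lehner element at infinity. -/
def atkinRep (hq : q.Prime) (hqN : ¬ q ∣ N) : Option (Fin q) → Gamma0 N
  | none => atkinAux N q (hq.coprime_iff_not_dvd.mpr hqN)
  | some j => starRep N (j : ℤ)

theorem atkinRep_bijective [NeZero N] (hq : q.Prime) (hqN : ¬ q ∣ N) :
    Bijective fun i => (((atkinRep hq hqN i)⁻¹ : Gamma0 N) : Gamma0 N ⧸ levelSub N q) := by
  have e : (fun i => (((atkinRep hq hqN i)⁻¹ : Gamma0 N) : Gamma0 N ⧸ levelSub N q))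
      = fun i => (((starRepFull N hq hqN i)⁻¹ : Gamma0 N) : Gamma0 N ⧸ gamma0Sub N q) := by
    funext i
    cases i with
    | none =>
      refine (mk_inv_eq_mk_inv_iff N _ _).mpr ?_
      rw [show (starRepFull N hq hqN none : SL(2, ℤ)) 1 0 = (N : ℤ) from rfl,
        show (starRepFull N hq hqN none : SL(2, ℤ)) 1 1 = (q : ℤ) from rfl,
        show (atkinRep hq hqN none : SL(2, ℤ)) 1 0 = (N : ℤ) from rfl,
        show (atkinRep hq hqN none : SL(2, ℤ)) 1 1 = (q : ℤ) from rfl]
      simp [mul_comm]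
    | some j => rfl
  rw [e]
  exact starRepFull_bijective N hq hqN

/-- `cor ∘ res₂ ∘ res₂ + res = res₂ ∘ T_q` at level `N q`. -/
theorem cor_res₂_res₂ [NeZero N] [NeZero q] [NeZero (N * q)] (hq : q.Prime) (hqN : ¬ q ∣ N)
    (φ : Hom1 N A) :
    cor (N * q) q (res₂ (N * q) q (res₂ N q φ)) + res N q φ = res₂ N q (heckeDeg N q φ) := by
  refine AddMonoidHom.ext fun g => ?_
  obtain ⟨g, rfl⟩ := Additive.ofMul.surjective g
  have hcop := hq.coprime_iff_not_dvd.mpr hqN
  have hqM : q ∣ N * q := dvd_mul_left q N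
  set c' : Fin q → Gamma0 (N * q) := fun j => starRep (N * q) (j : ℤ)
  have hc' := starRep_bijective (N * q) hq hqM
  set c := atkinRep hq hqN
  have hc := atkinRep_bijective hq hqN
  set τ := repPerm c' hc' g
  -- conjugating the level `N q` representatives by `diag(q, 1)` gives those of level `N`
  have hδ : ∀ j, deltaGamma0 N q (c' j) = c (some j) := fun j => by
    refine eq_of_matOf_eq (mul_left_cancel_diag (NeZero.ne q) ?_)
    rw [matOf_deltaGamma0]
    ext r s
    fin_cases r <;> fin_cases s <;>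
      simp [c, c', atkinRep, starRep, matOf, Matrix.mul_apply, Fin.sum_univ_two, mul_assoc,
        mul_left_comm, mul_comm]
  set σ : Option (Fin q) → Option (Fin q) := Option.map τ
  have hsome : ∀ j, c (some j) * deltaGamma0 N q g * (c (σ (some j)))⁻¹ =
      deltaGamma0 N q (c' j * g * (c' (τ j))⁻¹) := fun j => by
    simp [σ, map_mul, ← hδ]
  have hσ : ∀ i, c i * deltaGamma0 N q g * (c (σ i))⁻¹ ∈ levelSub N q := by
    intro i
    cases i with
    | none => exact atkinAux_mul_mul_inv_mem N q hcop g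
    | some j =>
      rw [hsome]
      show (deltaGamma0 N q _ : SL(2, ℤ)) ∈ Gamma0 (N * q)
      exact deltaSL_mem (N * q) q ⟨_, repPerm_mem c' hc' g j⟩
  show cor (N * q) q (res₂ (N * q) q (res₂ N q φ)) (Additive.ofMul g) + _ = _
  rw [res₂_apply, ← res_heckeDeg_eq, cor_apply c hc _ _ σ hσ, Fintype.sum_option,
    cor_apply c' hc' _ g τ (repPerm_mem c' hc' g), res_apply, add_comm]
  congr 1
  · -- the term at infinity: conjugation by `diag(q,1) A diag(q,1) / q`
    obtain ⟨E, hE⟩ : ∃ E : Gamma0 N,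
        diagMat q * matOf (atkinAux N q hcop) * diagMat q = (q : ℤ) • matOf E := by
      refine ⟨⟨⟨!![(q : ℤ) * q.gcdA N, -q.gcdB N; (N : ℤ), 1], ?_⟩, Gamma0_mem.mpr (by simp)⟩, ?_⟩
      · have h := (atkinAuxSL N q hcop).2
        rw [Matrix.det_fin_two] at h
        simp [atkinAuxSL] at h
        rw [Matrix.det_fin_two_of]
        linear_combination h
      · ext r s
        fin_cases r <;> fin_cases s <;>
          simp [atkinAux, atkinAuxSL, matOf, Matrix.mul_apply, Fin.sum_univ_two, mul_comm,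
            mul_left_comm]
    have key : deltaGamma0 N q ⟨_, hσ none⟩ * E = E * inclGamma0 N q g := by
      refine eq_of_matOf_eq (smul_right_injective (Matrix (Fin 2) (Fin 2) ℤ)
        (by exact_mod_cast NeZero.ne q : (q : ℤ) ≠ 0) ?_)
      show (q : ℤ) • _ = (q : ℤ) • _
      rw [matOf_mul, matOf_mul, matOf_inclGamma0, ← Matrix.mul_smul, ← Matrix.smul_mul, ← hE,
        ← Matrix.mul_assoc, ← Matrix.mul_assoc, matOf_deltaGamma0]
      show diagMat q * matOf (atkinAux N q hcop * deltaGamma0 N q g * (atkinAux N q hcop)⁻¹) *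
        matOf (atkinAux N q hcop) * diagMat q = _
      rw [Matrix.mul_assoc (diagMat q), ← matOf_mul, inv_mul_cancel_right, matOf_mul]
      simp only [Matrix.mul_assoc]
      rw [matOf_deltaGamma0]
    have key' := eq_mul_inv_of_mul_eq key
    show φ (Additive.ofMul (inclGamma0 N q g)) =
      φ (Additive.ofMul (deltaGamma0 N q ⟨_, hσ none⟩))
    refine Eq.trans ?_ (congrArg φ (congrArg Additive.ofMul key')).symm
    simp [ofMul_mul, ofMul_inv, map_add, map_neg]
  · refine Finset.sum_congr rfl fun j _ => ?_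
    rw [res₂_apply, res₂_apply, res₂_apply]
    refine congrArg φ (congrArg Additive.ofMul (congrArg (deltaGamma0 N q) (Subtype.ext ?_)))
    exact (congrArg Subtype.val (hsome j)).symm

end Fermat.Agent.CongMod
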