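/-
Gluing for the double degeneracy map `Hom(Γ₀(Nq))² → Hom(Γ₀(Nqq))` (owner: helper91).

If `q ∤ N` is prime, `A` is killed by an odd prime `p ≠ q`, and `res u + res₂ v = 0` at level
`N q q`, then there is `w : Hom(Γ₀(N), A)` such that `u + res₂ w` and `v - res w` vanish on the
elements of `Γ₀(Nq)` with `d ≡ 1 mod q`; `w` is parabolic if `v` is.
-/
import Fermat.Agent.CongMod.Extend
import Fermat.Agent.CongMod.SL2Fq
import Fermat.Agent.CongMod.Transfer
import Fermat.Agent.LR.Pairing.Gamma0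

set_option autoImplicit false

noncomputable section

open CongruenceSubgroup Function Matrix
open scoped MatrixGroups

namespace Fermat.Agent.CongMod

open LR HK
open ModularCurve.Period (IsParabolicHom)

variable {N q : ℕ}

/-- Reduction mod `q` on `Γ₀(N)`. -/
def redMod (N q : ℕ) : Gamma0 N →* SL(2, ZMod q) :=
  (Matrix.SpecialLinearGroup.map (Int.castRingHom (ZMod q))).comp (Gamma0 N).subtype

theorem redMod_apply (g : Gamma0 N) (i j : Fin 2) :
    (redMod N q g).1 i j = (((g : SL(2, ℤ)) i j : ℤ) : ZMod q) := rfl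

theorem mem_ker_redMod {g : Gamma0 N} :
    g ∈ (redMod N q).ker ↔ (((g : SL(2, ℤ)) 0 0 : ℤ) : ZMod q) = 1 ∧
      (((g : SL(2, ℤ)) 0 1 : ℤ) : ZMod q) = 0 ∧ (((g : SL(2, ℤ)) 1 0 : ℤ) : ZMod q) = 0 ∧
      (((g : SL(2, ℤ)) 1 1 : ℤ) : ZMod q) = 1 := by
  rw [MonoidHom.mem_ker]
  constructor
  · intro h
    simp only [← redMod_apply, h]
    simp
  · rintro ⟨h00, h01, h10, h11⟩
    apply Subtype.ext
    ext i j
    fin_cases i <;> fin_cases j <;>
      simp [redMod_apply, h00, h01, h10, h11]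

/-- The upper unipotent `[[1, x], [0, 1]]`. -/
def upperSL (x : ℤ) : SL(2, ℤ) := ⟨!![1, x; 0, 1], by simp [Matrix.det_fin_two_of]⟩

/-- The lower unipotent `[[1, 0], [c, 1]]`. -/
def lowerSL (c : ℤ) : SL(2, ℤ) := ⟨!![1, 0; c, 1], by simp [Matrix.det_fin_two_of]⟩

/-- The upper unipotent `[[1, x], [0, 1]]` in `Γ₀(N)`. -/
def upperU (N : ℕ) (x : ℤ) : Gamma0 N :=
  ⟨upperSL x, Gamma0_mem.mpr (show (((0 : ℤ)) : ZMod N) = 0 by simp)⟩

/-- The lower unipotent `[[1, 0], [N m, 1]]` in `Γ₀(N)`. -/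
def lowerU (N : ℕ) (m : ℤ) : Gamma0 N :=
  ⟨lowerSL ((N : ℤ) * m), Gamma0_mem.mpr (show ((((N : ℤ) * m) : ℤ) : ZMod N) = 0 by simp)⟩

@[simp] theorem coe_upperU (x : ℤ) : ((upperU N x : Gamma0 N) : SL(2, ℤ)) = upperSL x := rfl

@[simp] theorem coe_lowerU (m : ℤ) :
    ((lowerU N m : Gamma0 N) : SL(2, ℤ)) = lowerSL ((N : ℤ) * m) := rfl

@[simp] theorem val_upperSL (x : ℤ) : (upperSL x).1 = !![1, x; 0, 1] := rfl

@[simp] theorem val_lowerSL (c : ℤ) : (lowerSL c).1 = !![1, 0; c, 1] := rfl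

theorem matOf_upperU (x : ℤ) : matOf (upperU N x) = !![1, x; 0, 1] := rfl

theorem matOf_lowerU (m : ℤ) : matOf (lowerU N m) = !![1, 0; (N : ℤ) * m, 1] := rfl

theorem upperU_zero : upperU N 0 = 1 :=
  eq_of_matOf_eq (by rw [matOf_upperU]; simp [matOf, Matrix.one_fin_two])

theorem lowerU_zero : lowerU N 0 = 1 :=
  eq_of_matOf_eq (by rw [matOf_lowerU]; simp [matOf, Matrix.one_fin_two])

theorem upperU_add (x y : ℤ) : upperU N (x + y) = upperU N x * upperU N y :=
  eq_of_matOf_eq (by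
    rw [matOf_mul, matOf_upperU, matOf_upperU, matOf_upperU]
    ext i j
    fin_cases i <;> fin_cases j <;> simp [Matrix.mul_apply, Fin.sum_univ_two, add_comm])

theorem lowerU_add (x y : ℤ) : lowerU N (x + y) = lowerU N x * lowerU N y :=
  eq_of_matOf_eq (by
    rw [matOf_mul, matOf_lowerU, matOf_lowerU, matOf_lowerU]
    ext i j
    fin_cases i <;> fin_cases j <;> simp [Matrix.mul_apply, Fin.sum_univ_two, mul_add])

variable [hq : Fact q.Prime]

/-- `Γ₀(N) → SL(2, ℤ/q)` is onto for `q ∤ N`. -/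
theorem redMod_surjective (hqN : ¬ q ∣ N) : Surjective (redMod N q) := by
  have hN : ((N : ℤ) : ZMod q) ≠ 0 := by
    simpa [ZMod.natCast_eq_zero_iff] using hqN
  have hU : ∀ x : ZMod q, ∃ g : Gamma0 N, (redMod N q g).1 = !![1, x; 0, 1] := fun x =>
    ⟨upperU N (x.val : ℤ), by
      ext i j
      fin_cases i <;> fin_cases j <;> simp [redMod_apply, upperU]⟩
  have hL : ∀ y : ZMod q, ∃ g : Gamma0 N, (redMod N q g).1 = !![1, 0; y, 1] := fun y =>
    ⟨lowerU N ((y / ((N : ℤ) : ZMod q)).val : ℤ), by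
      ext i j
      fin_cases i <;> fin_cases j <;> simp [redMod_apply, lowerU]
      have hN' : (N : ZMod q) ≠ 0 := by simpa using hN
      field_simp⟩
  have hc : ∀ M : SL(2, ZMod q), M.1 1 0 ≠ 0 → M ∈ (redMod N q).range := by
    intro M hM
    obtain ⟨g1, h1⟩ := hU ((M.1 0 0 - 1) / M.1 1 0)
    obtain ⟨g2, h2⟩ := hL (M.1 1 0)
    obtain ⟨g3, h3⟩ := hU ((M.1 1 1 - 1) / M.1 1 0)
    refine ⟨g1 * g2 * g3, Subtype.ext ?_⟩
    have hd := M.2
    rw [Matrix.det_fin_two] at hd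
    rw [map_mul, map_mul, Matrix.SpecialLinearGroup.coe_mul, Matrix.SpecialLinearGroup.coe_mul,
      h1, h2, h3]
    ext i j
    fin_cases i <;> fin_cases j <;> simp [Matrix.mul_apply, Fin.sum_univ_two] <;> field_simp
    · ring
    · linear_combination hd
    · ring
  intro M
  by_cases hM : M.1 1 0 = 0
  · obtain ⟨g, hg⟩ := hL 1
    have hd : M.1 1 1 ≠ 0 := by
      intro h
      have hd := M.2
      rw [Matrix.det_fin_two, hM, h] at hd
      simp at hd
    have hM' : (M * redMod N q g).1 1 0 ≠ 0 := by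
      rw [Matrix.SpecialLinearGroup.coe_mul, hg]
      simp [Matrix.mul_apply, Fin.sum_univ_two, hM, hd]
    exact (Subgroup.mul_mem_cancel_right _ (MonoidHom.mem_range.mpr ⟨g, rfl⟩)).mp (hc _ hM')
  · exact hc M hM

/-- In characteristic `q`, a matrix of trace square `4` has order dividing `2 q`. -/
theorem sl2_pow_two_mul_eq_one (M : SL(2, ZMod q)) (hM : (M.1 0 0 + M.1 1 1) ^ 2 = 4) :
    M.1 ^ (2 * q) = 1 := by
  set t := M.1 0 0 + M.1 1 1 with ht
  obtain ⟨ε, hε, hε'⟩ : ∃ ε : ZMod q, t = ε + ε ∧ ε * ε = 1 := by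
    rcases eq_or_ne (2 : ZMod q) 0 with h2 | h2
    · refine ⟨1, ?_, one_mul 1⟩
      have h4 : t ^ 2 = 0 := by rw [hM]; linear_combination (2 : ZMod q) * h2
      rw [pow_eq_zero_iff two_ne_zero] at h4
      rw [h4]; linear_combination -h2
    · refine ⟨t / 2, by field_simp; ring, ?_⟩
      field_simp
      linear_combination hM
  have hnil : (M.1 - ε • 1) * (M.1 - ε • 1) = 0 := by
    rw [Matrix.sub_mul, Matrix.mul_sub, Matrix.mul_sub, sq_eq_trace_smul_sub_one, ← ht, hε,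
      Matrix.smul_mul, Matrix.mul_smul, Matrix.mul_one, Matrix.one_mul, Matrix.smul_mul,
      Matrix.one_mul, smul_smul, hε', one_smul, add_smul]
    abel
  have hN : (M.1 - ε • 1) ^ q = 0 := by
    exact pow_eq_zero_of_le hq.out.two_le (by rw [sq, hnil])
  have hMq : M.1 ^ q = ε • 1 := by
    have hcomm : Commute (ε • (1 : Matrix (Fin 2) (Fin 2) (ZMod q))) (M.1 - ε • 1) :=
      (Commute.one_left _).smul_left ε
    conv_lhs => rw [← add_sub_cancel (ε • 1) M.1]
    rw [add_pow_char_of_commute _ hcomm, hN, add_zero, smul_pow, one_pow, ZMod.pow_card]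
  rw [mul_comm 2 q, pow_mul, hMq, sq, Matrix.smul_mul, Matrix.one_mul, smul_smul, hε', one_smul]

theorem mem_mul_of_ker (hqN : ¬ q ∣ N) {g : Gamma0 N} (hg : g ∈ (redMod N q).ker) :
    (g : SL(2, ℤ)) ∈ Gamma0 (N * q) := by
  rw [Gamma0_mem, ZMod.intCast_zmod_eq_zero_iff_dvd]
  push_cast
  refine IsCoprime.mul_dvd ?_ (Gamma0.dvd_one_zero g) ?_
  · exact Int.isCoprime_iff_nat_coprime.mpr
      (by simpa using ((hq.out.coprime_iff_not_dvd).mpr hqN).symm)
  · exact (ZMod.intCast_zmod_eq_zero_iff_dvd _ _).mp (mem_ker_redMod.mp hg).2.2.1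

/-- The kernel of reduction mod `q`, inside `Γ₀(N q)`. -/
def kerIncl (hqN : ¬ q ∣ N) : (redMod N q).ker →* Gamma0 (N * q) :=
  MonoidHom.mk' (fun k => ⟨((k : Gamma0 N) : SL(2, ℤ)), mem_mul_of_ker hqN k.2⟩)
    fun _ _ => rfl

theorem matOf_kerIncl (hqN : ¬ q ∣ N) (k : (redMod N q).ker) :
    matOf (kerIncl hqN k) = matOf (k : Gamma0 N) := rfl

theorem deltaGamma0_injective (N : ℕ) : Injective (deltaGamma0 N q) := by
  intro a b h
  apply eq_of_matOf_eq
  have ha := matOf_deltaGamma0 (N := N) (q := q) a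
  rw [h, matOf_deltaGamma0] at ha
  have h' := congrArg ((diagMat q).adjugate * ·) ha
  simp only [← Matrix.mul_assoc, Matrix.adjugate_mul, Matrix.smul_mul, Matrix.one_mul] at h'
  exact (smul_right_injective _ (by simpa [Matrix.det_fin_two_of] using hq.out.ne_zero) h').symm

variable {A : Type*} [AddCommGroup A]

/-- The relation at level `N q q` read on the kernel. -/
theorem kerIncl_add_eq_zero (hqN : ¬ q ∣ N) {u v : Hom1 (N * q) A}
    (h : res (N * q) q u + res₂ (N * q) q v = 0) (k : (redMod N q).ker) (m : Gamma0 (N * q))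
    (hm : deltaGamma0 N q m = (k : Gamma0 N)) :
    v (Additive.ofMul (kerIncl hqN k)) + u (Additive.ofMul m) = 0 := by
  have hm' : (m : SL(2, ℤ)) ∈ Gamma0 (N * q * q) := by
    rw [Gamma0_mem, ZMod.intCast_zmod_eq_zero_iff_dvd]
    obtain ⟨j, hj⟩ := Gamma0.dvd_one_zero (kerIncl hqN k)
    refine ⟨j, ?_⟩
    have e : ((k : Gamma0 N) : SL(2, ℤ)) 1 0 = (m : SL(2, ℤ)) 1 0 / q := by rw [← hm]; rfl
    rw [lowerLeft_eq_mul N q m, ← e]
    show (q : ℤ) * ((kerIncl hqN k : Gamma0 (N * q)) : SL(2, ℤ)) 1 0 = _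
    rw [hj]; push_cast; ring
  have h' := DFunLike.congr_fun h (Additive.ofMul (⟨(m : SL(2, ℤ)), hm'⟩ : Gamma0 (N * q * q)))
  rw [AddMonoidHom.add_apply, AddMonoidHom.zero_apply, res_apply, res₂_apply] at h'
  have e1 : inclGamma0 (N * q) q (⟨(m : SL(2, ℤ)), hm'⟩ : Gamma0 (N * q * q)) = m := rfl
  have e2 : deltaGamma0 (N * q) q (⟨(m : SL(2, ℤ)), hm'⟩ : Gamma0 (N * q * q)) = kerIncl hqN k := by
    apply Subtype.ext
    show _ = ((k : Gamma0 N) : SL(2, ℤ))
    rw [← hm]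
    rfl
  rw [e1, e2, add_comm] at h'
  exact h'

/-- An element of `Γ₀(N)` with `q ∣ b` is in the image of `deltaGamma0`. -/
theorem exists_deltaGamma0_eq {g : Gamma0 N} (hg : (q : ℤ) ∣ (g : SL(2, ℤ)) 0 1) :
    ∃ g' : Gamma0 (N * q), deltaGamma0 N q g' = g := by
  obtain ⟨b, hb⟩ := hg
  obtain ⟨c, hc⟩ := Gamma0.dvd_one_zero g
  have hd := (g : SL(2, ℤ)).2
  rw [Matrix.det_fin_two, hb] at hd
  refine ⟨⟨⟨!![(g : SL(2, ℤ)) 0 0, b; (q : ℤ) * (g : SL(2, ℤ)) 1 0, (g : SL(2, ℤ)) 1 1],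
    by rw [Matrix.det_fin_two_of]; linear_combination hd⟩, ?_⟩, ?_⟩
  · refine Gamma0_mem.mpr ((ZMod.intCast_zmod_eq_zero_iff_dvd _ _).mpr ⟨c, ?_⟩)
    show (q : ℤ) * (g : SL(2, ℤ)) 1 0 = _
    rw [hc]; push_cast; ring
  · refine eq_of_matOf_eq (mul_left_cancel_diag hq.out.ne_zero ?_)
    rw [matOf_deltaGamma0]
    ext i j
    fin_cases i <;> fin_cases j <;>
      simp [matOf, Matrix.mul_apply, Fin.sum_univ_two, hb, mul_comm]

/-- The restriction of `v` to the kernel of reduction is invariant under `Γ₀(N)`. -/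
theorem isConjInvariant_kerIncl (hqN : ¬ q ∣ N) {u v : Hom1 (N * q) A}
    (h : res (N * q) q u + res₂ (N * q) q v = 0) :
    IsConjInvariant (redMod N q) (v.comp (MonoidHom.toAdditive (kerIncl hqN))) := by
  set φ := v.comp (MonoidHom.toAdditive (kerIncl hqN)) with hφdef
  have hφ : ∀ k, φ (Additive.ofMul k) = v (Additive.ofMul (kerIncl hqN k)) := fun _ => rfl
  let cj : Gamma0 N → (redMod N q).ker → (redMod N q).ker := fun g k =>
    ⟨g * k * g⁻¹, (MonoidHom.normal_ker _).conj_mem _ k.2 g⟩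
  -- the property is multiplicative
  have hmul : ∀ g g', (∀ k, φ (Additive.ofMul (cj g k)) = φ (Additive.ofMul k)) →
      (∀ k, φ (Additive.ofMul (cj g' k)) = φ (Additive.ofMul k)) →
      ∀ k, φ (Additive.ofMul (cj (g * g') k)) = φ (Additive.ofMul k) := by
    intro g g' hg hg' k
    rw [show cj (g * g') k = cj g (cj g' k) from Subtype.ext (by simp [cj, mul_assoc]), hg, hg']
  -- `Γ₀(N q)`
  have hG : ∀ g : Gamma0 N, (g : SL(2, ℤ)) ∈ Gamma0 (N * q) →
      ∀ k, φ (Additive.ofMul (cj g k)) = φ (Additive.ofMul k) := by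
    intro g hg k
    have e : kerIncl hqN (cj g k) =
        (⟨(g : SL(2, ℤ)), hg⟩ : Gamma0 (N * q)) * kerIncl hqN k * ⟨(g : SL(2, ℤ)), hg⟩⁻¹ :=
      Subtype.ext rfl
    rw [hφ, hφ, e, ofMul_mul, ofMul_mul, ofMul_inv, map_add, map_add, map_neg]
    abel
  -- `q ∣ b`
  have hG' : ∀ g : Gamma0 N, (q : ℤ) ∣ (g : SL(2, ℤ)) 0 1 →
      ∀ k, φ (Additive.ofMul (cj g k)) = φ (Additive.ofMul k) := by
    intro g hg k
    obtain ⟨g', rfl⟩ := exists_deltaGamma0_eq hg
    obtain ⟨m, hm⟩ := exists_deltaGamma0_eq (g := (k : Gamma0 N))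
      ((ZMod.intCast_zmod_eq_zero_iff_dvd _ _).mp (mem_ker_redMod.mp k.2).2.1)
    have h1 := kerIncl_add_eq_zero hqN h k m hm
    have h2 := kerIncl_add_eq_zero hqN h (cj (deltaGamma0 N q g') k) (g' * m * g'⁻¹)
      (by rw [map_mul, map_mul, map_inv, hm])
    rw [ofMul_mul, ofMul_mul, ofMul_inv, map_add, map_add, map_neg, add_right_comm,
      add_neg_cancel, zero_add] at h2
    rw [hφ, hφ, eq_neg_of_add_eq_zero_left h1, eq_neg_of_add_eq_zero_left h2]
  have hU : ∀ x, ∀ k, φ (Additive.ofMul (cj (upperU N x) k)) = φ (Additive.ofMul k) := fun x =>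
    hG _ (by rw [Gamma0_mem]; simp)
  have hne : ∀ g : Gamma0 N, ¬ (q : ℤ) ∣ (g : SL(2, ℤ)) 0 0 →
      ∀ k, φ (Additive.ofMul (cj g k)) = φ (Additive.ofMul k) := by
    intro g hg
    have ha : (((g : SL(2, ℤ)) 0 0 : ℤ) : ZMod q) ≠ 0 := by
      rwa [Ne, ZMod.intCast_zmod_eq_zero_iff_dvd]
    set x : ℤ := ((-(((g : SL(2, ℤ)) 0 1 : ℤ) : ZMod q) / (((g : SL(2, ℤ)) 0 0 : ℤ) : ZMod q)).val : ℤ)
      with hx
    rw [show g = g * upperU N x * upperU N (-x) by
      rw [mul_assoc, ← upperU_add, add_neg_cancel, upperU_zero, mul_one]]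
    refine hmul _ _ (hG' _ ?_) (hU _)
    rw [← ZMod.intCast_zmod_eq_zero_iff_dvd]
    simp [hx, Matrix.mul_apply, Fin.sum_univ_two]
    field_simp
    ring
  intro g k
  by_cases ha : (q : ℤ) ∣ (g : SL(2, ℤ)) 0 0
  · rw [show g = upperU N (-1) * (upperU N 1 * g) by
      rw [← mul_assoc, ← upperU_add, neg_add_cancel, upperU_zero, one_mul]]
    refine hmul _ _ (hU _) (hne _ ?_) k
    intro hd
    have hc : (q : ℤ) ∣ (g : SL(2, ℤ)) 1 0 := by
      simpa [Matrix.mul_apply, Fin.sum_univ_two, dvd_add_right ha] using hd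
    have hdet := (g : SL(2, ℤ)).2
    rw [Matrix.det_fin_two] at hdet
    exact (Nat.prime_iff_prime_int.mp hq.out).not_dvd_one
      (hdet ▸ dvd_sub (ha.mul_right _) (hc.mul_left _))
  · exact hne g ha k

omit hq in
theorem res_res₂_comm (w : Hom1 N A) :
    res (N * q) q (res₂ N q w) = res₂ (N * q) q (res N q w) := rfl

/-- A homomorphism killed by the prime `p` and by `n` coprime to `p` vanishes. -/
theorem eq_zero_of_nsmul_coprime {p n : ℕ} [hp : Fact p.Prime] (hn : ¬ p ∣ n)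
    (hA : ∀ a : A, p • a = 0) {a : A} (h : n • a = 0) : a = 0 := by
  have ho : addOrderOf a ∣ Nat.gcd n p :=
    Nat.dvd_gcd (addOrderOf_dvd_of_nsmul_eq_zero h) (addOrderOf_dvd_of_nsmul_eq_zero (hA _))
  rw [Nat.Coprime.gcd_eq_one ((hp.out.coprime_iff_not_dvd.mpr hn).symm), Nat.dvd_one,
    AddMonoid.addOrderOf_eq_one_iff] at ho
  exact ho

variable {p : ℕ} [hp : Fact p.Prime]

/-- **Gluing.** -/
theorem exists_glue (hp2 : p ≠ 2) (hpq : p ≠ q) (hqN : ¬ q ∣ N) (hA : ∀ a : A, p • a = 0)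
    (u v : Hom1 (N * q) A) (h : res (N * q) q u + res₂ (N * q) q v = 0) :
    ∃ w : Hom1 N A, (IsParabolicHom (Gamma0 (N * q)) v → IsParabolicHom (Gamma0 N) w) ∧
      ∀ m : Gamma0 (N * q), (((m : SL(2, ℤ)) 1 1 : ℤ) : ZMod q) = 1 →
        (u + res₂ N q w) (Additive.ofMul m) = 0 ∧ (v - res N q w) (Additive.ofMul m) = 0 := by
  obtain ⟨w, hw⟩ := exists_hom_extend hp2 hA (redMod_surjective hqN)
    (isConjInvariant_kerIncl hqN h) (exists_generator_sylow hp2 hpq)
  have hpq' : ¬ p ∣ q := fun hd => hpq ((Nat.prime_dvd_prime_iff_eq hp.out hq.out).mp hd)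
  set u' := u + res₂ N q w with hu'
  set v' := v - res N q w with hv'
  -- both vanish on the kernel
  have hvK : ∀ k, v' (Additive.ofMul (kerIncl hqN k)) = 0 := fun k => by
    rw [hv', AddMonoidHom.sub_apply, res_apply,
      show inclGamma0 N q (kerIncl hqN k) = (k : Gamma0 N) from rfl, hw k]
    exact sub_self _
  have huK : ∀ m : Gamma0 (N * q), deltaGamma0 N q m ∈ (redMod N q).ker →
      u' (Additive.ofMul m) = 0 := fun m hm => by
    rw [hu', AddMonoidHom.add_apply, res₂_apply, hw ⟨_, hm⟩, add_comm]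
    exact kerIncl_add_eq_zero hqN h ⟨_, hm⟩ m rfl
  have hinK : ∀ m : Gamma0 (N * q), inclGamma0 N q m ∈ (redMod N q).ker →
      v' (Additive.ofMul m) = 0 := fun m hm => hvK ⟨_, hm⟩
  -- and on the unipotents
  have hpowU : ∀ (x : ℤ) (n : ℕ), upperU (N * q) x ^ n = upperU (N * q) ((n : ℤ) * x) := by
    intro x n
    induction n with
    | zero => simp [upperU_zero]
    | succ n ih => rw [pow_succ, ih, ← upperU_add]; push_cast; ring_nf
  have hpowL : ∀ (x : ℤ) (n : ℕ), lowerU (N * q) x ^ n = lowerU (N * q) ((n : ℤ) * x) := by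
    intro x n
    induction n with
    | zero => simp [lowerU_zero]
    | succ n ih => rw [pow_succ, ih, ← lowerU_add]; push_cast; ring_nf
  have hvU : ∀ x, v' (Additive.ofMul (upperU (N * q) x)) = 0 := fun x => by
    refine eq_zero_of_nsmul_coprime hpq' hA ?_
    rw [← map_nsmul, ← ofMul_pow, hpowU]
    refine hinK _ (mem_ker_redMod.mpr ?_)
    simp [upperU, inclGamma0, Subgroup.coe_inclusion]
  have huU : ∀ x, u' (Additive.ofMul (upperU (N * q) x)) = 0 := fun x =>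
    huK _ (mem_ker_redMod.mpr (by simp [upperU, deltaGamma0, deltaSL]))
  have huL : ∀ x, u' (Additive.ofMul (lowerU (N * q) x)) = 0 := fun x => by
    refine eq_zero_of_nsmul_coprime hpq' hA ?_
    rw [← map_nsmul, ← ofMul_pow, hpowL]
    refine huK _ (mem_ker_redMod.mpr ?_)
    have : ((N * q : ℕ) : ℤ) * ((q : ℤ) * x) / (q : ℤ) = (N : ℤ) * q * x := by
      push_cast
      rw [show (N : ℤ) * q * (q * x) = q * (N * q * x) by ring,
        Int.mul_ediv_cancel_left _ (by exact_mod_cast hq.out.ne_zero)]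
    push_cast at this
    simp [deltaGamma0, deltaSL, this]
  refine ⟨w, ?_, fun m hd => ?_⟩
  · intro hv γ hγ
    refine eq_zero_of_nsmul_coprime (n := 2 * q) ?_ hA ?_
    · intro hd
      rcases (Nat.Prime.dvd_mul hp.out).mp hd with h2 | h2
      · exact hp2 ((Nat.prime_dvd_prime_iff_eq hp.out Nat.prime_two).mp h2)
      · exact hpq' h2
    have hker : γ ^ (2 * q) ∈ (redMod N q).ker := by
      rw [MonoidHom.mem_ker, map_pow]
      apply Subtype.ext
      rw [Matrix.SpecialLinearGroup.coe_pow, Matrix.SpecialLinearGroup.coe_one]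
      exact sl2_pow_two_mul_eq_one _ (by
        simp only [redMod_apply]
        have := congrArg (fun z : ℤ => (z : ZMod q)) hγ
        push_cast [Matrix.trace_fin_two] at this
        exact this)
    rw [← map_nsmul, ← ofMul_pow, hw ⟨_, hker⟩]
    exact hv _ (by
      have := Pairing.trace_sq_pow (g := (γ : SL(2, ℤ))) hγ (2 * q)
      simpa [kerIncl] using this)
  have hm := (mem_ker_redMod (N := N) (q := q) (g := inclGamma0 N q m))
  have hdetm : (((m : SL(2, ℤ)) 0 0 : ℤ) : ZMod q) = 1 := by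
    have hdet := congrArg (fun z : ℤ => (z : ZMod q)) (m : SL(2, ℤ)).2
    simp only [Matrix.det_fin_two, Int.cast_sub, Int.cast_mul, Int.cast_one, hd] at hdet
    have hc : (((m : SL(2, ℤ)) 1 0 : ℤ) : ZMod q) = 0 := by
      rw [ZMod.intCast_zmod_eq_zero_iff_dvd, lowerLeft_eq_mul N q m]
      exact dvd_mul_right _ _
    rw [hc] at hdet
    simpa using hdet
  have hcm : (((m : SL(2, ℤ)) 1 0 : ℤ) : ZMod q) = 0 := by
    rw [ZMod.intCast_zmod_eq_zero_iff_dvd, lowerLeft_eq_mul N q m]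
    exact dvd_mul_right _ _
  constructor
  · -- clear the lower left entry mod `q q`
    obtain ⟨j, hj⟩ := Gamma0.dvd_one_zero m
    have key : u' (Additive.ofMul (m * lowerU (N * q) (-j))) = 0 := by
      refine huK _ (mem_ker_redMod.mpr ⟨?_, ?_, ?_, ?_⟩)
      · simp [deltaGamma0, deltaSL, lowerU, Matrix.mul_apply, Fin.sum_univ_two, hdetm]
      · simp [deltaGamma0, deltaSL]
      · have : ((m * lowerU (N * q) (-j) : Gamma0 (N * q)) : SL(2, ℤ)) 1 0 =
            (q : ℤ) * ((N : ℤ) * j * (1 - (m : SL(2, ℤ)) 1 1)) := by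
          simp [lowerU, Matrix.mul_apply, Fin.sum_univ_two, hj]
          ring
        show ((((m * lowerU (N * q) (-j) : Gamma0 (N * q)) : SL(2, ℤ)) 1 0 / (q : ℤ) : ℤ) : ZMod q) = 0
        rw [this, Int.mul_ediv_cancel_left _ (by exact_mod_cast hq.out.ne_zero)]
        simp [hd]
      · simp [deltaGamma0, deltaSL, lowerU, Matrix.mul_apply, Fin.sum_univ_two, hd]
    rw [ofMul_mul, map_add, huL, add_zero] at key
    exact key
  · -- clear the upper right entry mod `q`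
    set x : ℤ := -(m : SL(2, ℤ)) 0 1
    have key : v' (Additive.ofMul (m * upperU (N * q) x)) = 0 := by
      refine hinK _ (mem_ker_redMod.mpr ?_)
      simp [inclGamma0, Subgroup.coe_inclusion, Matrix.mul_apply, Fin.sum_univ_two, x,
        hd, hdetm, hcm]
    rw [ofMul_mul, map_add, hvU, add_zero] at key
    exact key

end Fermat.Agent.CongMod
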