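/-
The Eisenstein part and injectivity of the raising maps away from it (owner: helper91).

* `heckeHom_of_factors`: `T_l φ = (l + 1) φ` if `φ` only depends on `d mod M`, `M ∣ N`, `l ∤ N`;
* `res_res₂_injective`: if `res x + res₂ y = 0` (`q` any prime `∤ N`, `A` killed by an odd prime)
  and `y` is a `T_l`-eigenvector with `a - (l+1)` invertible, then `y = 0`;
* `eq_zero_of_raiseTwo`, `eq_zero_of_raiseOne`: the same for the raising maps.
-/
import Fermat.Agent.CongMod.Glue
import Fermat.Agent.CongMod.Raise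
import Fermat.Agent.Ihara.Main

set_option autoImplicit false

noncomputable section

open CongruenceSubgroup Function Matrix
open scoped MatrixGroups

namespace Fermat.Agent.CongMod

open LR HK
open ModularCurve.Period (IsParabolicHom parabolicHoms mem_parabolicHoms_iff)

variable {A : Type*} [AddCommGroup A] {N l : ℕ}

/-- `φ` only depends on `d mod M`. -/
def FactorsThroughD (M : ℕ) (φ : Hom1 N A) : Prop :=
  ∀ γ : Gamma0 N, (((γ : SL(2, ℤ)) 1 1 : ℤ) : ZMod M) = 1 → φ (Additive.ofMul γ) = 0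

theorem intCast_lowerLeft {M : ℕ} (hM : M ∣ N) (γ : Gamma0 N) :
    (((γ : SL(2, ℤ)) 1 0 : ℤ) : ZMod M) = 0 := by
  rw [ZMod.intCast_zmod_eq_zero_iff_dvd]
  exact (Int.natCast_dvd_natCast.mpr hM).trans (Gamma0.dvd_one_zero γ)

theorem intCast_d_mul {M : ℕ} (hM : M ∣ N) (γ δ : Gamma0 N) :
    ((((γ * δ : Gamma0 N) : SL(2, ℤ)) 1 1 : ℤ) : ZMod M) =
      (((γ : SL(2, ℤ)) 1 1 : ℤ) : ZMod M) * (((δ : SL(2, ℤ)) 1 1 : ℤ) : ZMod M) := by
  rw [MulMemClass.coe_mul, Matrix.SpecialLinearGroup.coe_mul, Matrix.mul_apply, Fin.sum_univ_two]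
  push_cast
  rw [intCast_lowerLeft hM γ, zero_mul, zero_add]

theorem FactorsThroughD.eq {M : ℕ} {φ : Hom1 N A} (hφ : FactorsThroughD M φ) (hM : M ∣ N)
    {γ δ : Gamma0 N}
    (h : (((γ : SL(2, ℤ)) 1 1 : ℤ) : ZMod M) = (((δ : SL(2, ℤ)) 1 1 : ℤ) : ZMod M)) :
    φ (Additive.ofMul γ) = φ (Additive.ofMul δ) := by
  have h1 : (((γ⁻¹ * δ : Gamma0 N) : SL(2, ℤ)) 1 1 : ZMod M) = 1 := by
    rw [intCast_d_mul hM, ← h, ← intCast_d_mul hM, inv_mul_cancel]
    simp
  have := hφ _ h1
  rw [ofMul_mul, ofMul_inv, map_add, map_neg, neg_add_eq_zero] at this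
  exact this

variable [hl : Fact l.Prime]

theorem heckeHom_of_factors {R : Type*} [Semiring R] [Module R A] (hlN : ¬ l ∣ N) {M : ℕ}
    (hM : M ∣ N) {φ : Hom1 N A} (hφ : FactorsThroughD M φ) :
    heckeHom N l R A φ = (l + 1) • φ := by
  refine AddMonoidHom.ext fun g => ?_
  obtain ⟨g, rfl⟩ := Additive.ofMul.surjective g
  have hcop : l.Coprime N := (hl.out.coprime_iff_not_dvd).mpr hlN
  let E : HeckeIdx N l → Gamma0 N := fun i => if i.1.isSome then atkinAux N l hcop else 1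
  have hE : ∀ i, (((E i : SL(2, ℤ)) 1 1 : ℤ) : ZMod M) = ((heckeMat i 1 1 : ℤ) : ZMod M) := by
    intro i
    refine HeckeIdx.cases_upper_diag (fun j => ?_) (fun h => ?_) i
    · simp only [E, HeckeIdx.upper, Option.isSome_some, if_true, heckeMat]
      rfl
    · simp only [E, HeckeIdx.diag, Option.isSome_none, Bool.false_eq_true, if_false, heckeMat]
      rfl
  have key : ∀ i, φ (Additive.ofMul (heckeCoc g i)) =
      φ (Additive.ofMul (E i)) + φ (Additive.ofMul g) -
        φ (Additive.ofMul (E (heckeNext g i))) := by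
    intro i
    rw [eq_sub_iff_add_eq, ← map_add φ, ← map_add φ, ← ofMul_mul, ← ofMul_mul]
    refine hφ.eq hM ?_
    rw [intCast_d_mul hM, intCast_d_mul hM, hE, hE, ← Int.cast_mul, ← Int.cast_mul]
    have e := congrFun (congrFun (heckeCoc_mul_heckeMat g i) 1) 1
    rw [Matrix.mul_apply, Matrix.mul_apply, Fin.sum_univ_two, Fin.sum_univ_two,
      heckeMat_one_zero i, zero_mul, zero_add] at e
    rw [← e]
    push_cast
    rw [intCast_lowerLeft hM (heckeCoc g i), zero_mul, zero_add]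
  rw [heckeHom_apply, AddMonoidHom.smul_apply]
  simp only [key, Finset.sum_sub_distrib, Finset.sum_add_distrib,
    Equiv.sum_comp (heckePerm g) (fun i => φ (Additive.ofMul (E i))) |>.symm.trans
      (show ∑ i, φ (Additive.ofMul (E (heckePerm g i))) =
        ∑ i, φ (Additive.ofMul (E (heckeNext g i))) from rfl)]
  rw [add_sub_cancel_left, Finset.sum_const, Finset.card_univ]
  congr 1
  rw [Fintype.card_congr (Equiv.subtypeUnivEquiv
    (p := fun i : Option (Fin l) => l ∣ N → i.isSome) fun i h => absurd h hlN),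
    Fintype.card_option, Fintype.card_fin]

variable {q p : ℕ} [NeZero N] [hq : Fact q.Prime] [hp : Fact p.Prime]
  {k : Type*} [Field k] [CharP k p]

omit hl hq hp [NeZero N] in
theorem nsmul_eq_zero_of_charP (a : k) : p • a = 0 := by
  rw [nsmul_eq_mul, CharP.cast_eq_zero, zero_mul]

/-- **Ihara's lemma for eigenvectors.** -/
theorem res_res₂_injective (hp2 : p ≠ 2) (hqN : ¬ q ∣ N) (hlN : ¬ l ∣ N) {x y : HP k N}
    {a : k} (hy : heckeP k N l y = a • y) (ha : a ≠ ((l + 1 : ℕ) : k))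
    (h : resP k N q x + res₂P k N q y = 0) : y = 0 := by
  have h' : res N q (x : Hom1 N k) + res₂ N q (y : Hom1 N k) = 0 := congrArg Subtype.val h
  have hker : ∀ γ δ : Gamma0 N, Ihara.IsDegeneracyPair q γ δ →
      (x : Hom1 N k) (Additive.ofMul γ) + (y : Hom1 N k) (Additive.ofMul δ) = 0 := by
    rintro γ δ ⟨h00, h01, h10, h11⟩
    have hγ : (γ : SL(2, ℤ)) ∈ Gamma0 (N * q) := by
      rw [Gamma0_mem, ZMod.intCast_zmod_eq_zero_iff_dvd, ← h10]
      push_cast
      rw [mul_comm (N : ℤ)]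
      exact mul_dvd_mul_left _ (Gamma0.dvd_one_zero δ)
    have e := DFunLike.congr_fun h' (Additive.ofMul (⟨(γ : SL(2, ℤ)), hγ⟩ : Gamma0 (N * q)))
    rw [AddMonoidHom.add_apply, AddMonoidHom.zero_apply, res_apply, res₂_apply] at e
    have e1 : inclGamma0 N q (⟨(γ : SL(2, ℤ)), hγ⟩ : Gamma0 (N * q)) = γ := rfl
    have e2 : deltaGamma0 N q (⟨(γ : SL(2, ℤ)), hγ⟩ : Gamma0 (N * q)) = δ := by
      refine eq_of_matOf_eq (mul_left_cancel_diag hq.out.ne_zero ?_)
      rw [matOf_deltaGamma0]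
      ext i j
      fin_cases i <;> fin_cases j <;>
        simp [matOf, Matrix.mul_apply, Fin.sum_univ_two, h00, h01, h11] <;> linarith
    rwa [e1, e2] at e
  have hfac : FactorsThroughD N (y : Hom1 N k) := fun γ hγ =>
    (Ihara.ihara_eq_zero' hq.out hqN hp.out hp2 nsmul_eq_zero_of_charP (x : Hom1 N k)
      (y : Hom1 N k) (fun γ' htr => x.2 γ' (by rw [htr]; norm_num)) hker γ hγ).2
  have e : heckeP k N l y = ((l + 1 : ℕ) : k) • y := Subtype.ext (by
    rw [coe_heckeP, Submodule.coe_smul, heckeHom_of_factors hlN dvd_rfl hfac,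
      Nat.cast_smul_eq_nsmul])
  have e' : (a - ((l + 1 : ℕ) : k)) • y = 0 := by
    have h1 : (a - ((l + 1 : ℕ) : k)) • y = a • y - ((l + 1 : ℕ) : k) • y := by module
    rw [h1, ← hy, e, sub_self]
  exact (smul_eq_zero.mp e').resolve_left (sub_ne_zero.mpr ha)

/-- `raiseTwo` is injective on non-Eisenstein eigenvectors. -/
theorem eq_zero_of_raiseTwo (hp2 : p ≠ 2) (hpq : p ≠ q) (hqN : ¬ q ∣ N) (hlN : ¬ l ∣ N)
    (hlq : ¬ l ∣ q) {x : HP k N} {a : k} (hx : heckeP k N l x = a • x)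
    (ha : a ≠ ((l + 1 : ℕ) : k)) (h : raiseTwo k N q x = 0) : x = 0 := by
  have : NeZero q := ⟨hq.out.ne_zero⟩
  set u : HP k (N * q) := (q : k) • resP k N q x - res₂P k N q (heckeP k N q x)
  set v : HP k (N * q) := res₂P k N q x
  have huv : resP k (N * q) q u + res₂P k (N * q) q v = 0 := by
    rw [← h, raiseTwo_apply, map_sub, map_smul]
  obtain ⟨w, hw, hfac⟩ := exists_glue hp2 hpq hqN nsmul_eq_zero_of_charP
    (u : Hom1 (N * q) k) (v : Hom1 (N * q) k) (congrArg Subtype.val huv)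
  let W : HP k N := ⟨w, hw v.2⟩
  have hlNq : ¬ l ∣ N * q := fun hd => (hl.out.dvd_mul.mp hd).elim hlN hlq
  have hE : heckeP k (N * q) l (v - resP k N q W) =
      ((l + 1 : ℕ) : k) • (v - resP k N q W) :=
    Subtype.ext (by
      rw [coe_heckeP, Submodule.coe_smul, heckeHom_of_factors hlNq (dvd_mul_left q N)
        (φ := ((v - resP k N q W : HP k (N * q)) : Hom1 (N * q) k)) (fun m hm => (hfac m hm).2),
        Nat.cast_smul_eq_nsmul])
  set c : k := a - ((l + 1 : ℕ) : k)
  have hc : c ≠ 0 := sub_ne_zero.mpr ha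
  set W' : HP k N := c⁻¹ • (heckeP k N l W - ((l + 1 : ℕ) : k) • W) with hW'
  have hkey : resP k N q W' + res₂P k N q (-x) = 0 := by
    rw [map_sub, heckeP_res₂_comm hlq, heckeP_res_comm hlq, hx, map_smul] at hE
    have e : c • v = resP k N q (heckeP k N l W - ((l + 1 : ℕ) : k) • W) := by
      rw [map_sub, map_smul, show c • v = a • v - ((l + 1 : ℕ) : k) • v by simp only [c]; module]
      rw [smul_sub] at hE
      linear_combination (norm := module) hE
    rw [hW', map_smul, ← e, inv_smul_smul₀ hc, map_neg, add_neg_cancel]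
  have := res_res₂_injective hp2 hqN hlN (x := W') (y := -x) (a := a)
    (by rw [map_neg, hx, smul_neg]) ha hkey
  exact neg_eq_zero.mp this

/-- `raiseOne` is injective on non-Eisenstein eigenvectors, also for `q = p`. -/
theorem eq_zero_of_raiseOne (hp2 : p ≠ 2) (hqN : ¬ q ∣ N) (hlN : ¬ l ∣ N) {x : HP k N}
    {a α : k} (hx : heckeP k N l x = a • x) (ha : a ≠ ((l + 1 : ℕ) : k))
    (h : raiseOne k N q α x = 0) : x = 0 := by
  have := res_res₂_injective hp2 hqN hlN (x := α • x) (y := -x) (a := a)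
    (by rw [map_neg, hx, smul_neg]) ha
    (by rw [map_smul, map_neg, ← sub_eq_add_neg, ← raiseOne_apply, h])
  exact neg_eq_zero.mp this

end Fermat.Agent.CongMod
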