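/-
Reduction to the residue field and saturation of the raising maps (owner: helper91).

`𝒪` is a discrete valuation ring with residue characteristic an odd prime `p`. If `x` is a
`T_l`-eigenvector with eigenvalue `a`, `a - (l + 1)` a unit, then `raiseTwo x` (`q ≠ p`) and
`raiseOne α x` (any `q`) are divisible by a scalar exactly when `x` is.
-/
import Fermat.Agent.CongMod.Eisenstein
import Fermat.Agent.MF.PeriodGamma.Finite
import Mathlib.RingTheory.DiscreteValuationRing.Basic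
import Mathlib.RingTheory.LocalRing.ResidueField.Basic

set_option autoImplicit false

noncomputable section

open CongruenceSubgroup Function Matrix IsLocalRing
open scoped MatrixGroups

namespace Fermat.Agent.CongMod

open LR HK
open ModularCurve.Period (parabolicHoms)

variable {R S : Type*} [CommRing R] [CommRing S] {N q l : ℕ}

theorem map_mem_parabolicHoms (f : R →+* S) (a : HP R N) :
    f.toAddMonoidHom.comp (a : Hom1 N R) ∈ parabolicHoms S (Gamma0 N) S := fun γ hγ => by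
  show f ((a : Hom1 N R) (Additive.ofMul γ)) = 0
  rw [a.2 γ hγ, map_zero]

/-- Change of coefficients on parabolic homomorphisms. -/
def mapHP (N : ℕ) (f : R →+* S) : HP R N →ₛₗ[f] HP S N where
  toFun a := ⟨f.toAddMonoidHom.comp (a : Hom1 N R), map_mem_parabolicHoms f a⟩
  map_add' a b := Subtype.ext (AddMonoidHom.ext fun g =>
    f.map_add ((a : Hom1 N R) g) ((b : Hom1 N R) g))
  map_smul' c a := Subtype.ext (AddMonoidHom.ext fun g => f.map_mul c ((a : Hom1 N R) g))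

@[simp] theorem coe_mapHP (f : R →+* S) (a : HP R N) :
    (mapHP N f a : Hom1 N S) = f.toAddMonoidHom.comp (a : Hom1 N R) := rfl

theorem mapHP_resP (f : R →+* S) (a : HP R N) :
    mapHP (N * q) f (resP R N q a) = resP S N q (mapHP N f a) := rfl

theorem mapHP_res₂P (f : R →+* S) (a : HP R N) :
    mapHP (N * q) f (res₂P R N q a) = res₂P S N q (mapHP N f a) := rfl

theorem mapHP_heckeP [Fact l.Prime] (f : R →+* S) (a : HP R N) :
    mapHP N f (heckeP R N l a) = heckeP S N l (mapHP N f a) :=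
  Subtype.ext (heckeHom_comp (R := R) (R' := S) f.toAddMonoidHom (a : Hom1 N R)).symm

theorem mapHP_raiseTwo [Fact q.Prime] (f : R →+* S) (a : HP R N) :
    mapHP (N * q * q) f (raiseTwo R N q a) = raiseTwo S N q (mapHP N f a) := by
  have e1 : mapHP (N * q * q) f (resP R (N * q) q (resP R N q a)) =
      resP S (N * q) q (resP S N q (mapHP N f a)) := rfl
  have e2 : mapHP (N * q * q) f (resP R (N * q) q (res₂P R N q (heckeP R N q a))) =
      resP S (N * q) q (res₂P S N q (heckeP S N q (mapHP N f a))) := by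
    rw [← mapHP_heckeP]; rfl
  have e3 : mapHP (N * q * q) f (res₂P R (N * q) q (res₂P R N q a)) =
      res₂P S (N * q) q (res₂P S N q (mapHP N f a)) := rfl
  rw [raiseTwo_apply, raiseTwo_apply, map_add, map_sub, map_smulₛₗ, e1, e2, e3, map_natCast]

theorem mapHP_raiseOne (f : R →+* S) (α : R) (a : HP R N) :
    mapHP (N * q) f (raiseOne R N q α a) = raiseOne S N q (f α) (mapHP N f a) := by
  rw [raiseOne_apply, raiseOne_apply, map_sub, map_smulₛₗ, mapHP_resP, mapHP_res₂P]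

variable {𝒪 : Type*} [CommRing 𝒪] [IsDomain 𝒪]

/-- Scalars cancel. -/
theorem hp_smul_cancel {c : 𝒪} (hc : c ≠ 0) {x y : HP 𝒪 N} (h : c • x = c • y) : x = y :=
  Subtype.ext (AddMonoidHom.ext fun g => mul_left_cancel₀ hc
    (DFunLike.congr_fun (congrArg Subtype.val h) g))

/-- A parabolic homomorphism with values in `ϖ 𝒪` is a multiple of `ϖ`. -/
theorem exists_smul_eq_of_forall_dvd {ϖ : 𝒪} (hϖ : ϖ ≠ 0) (x : HP 𝒪 N)
    (h : ∀ γ : Gamma0 N, ϖ ∣ (x : Hom1 N 𝒪) (Additive.ofMul γ)) : ∃ x' : HP 𝒪 N, ϖ • x' = x := by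
  choose v hv using fun g : Additive (Gamma0 N) => h (Additive.toMul g)
  have hv' : ∀ g, (x : Hom1 N 𝒪) g = ϖ * v g := hv
  let φ : Hom1 N 𝒪 := AddMonoidHom.mk' v fun g g' => mul_left_cancel₀ hϖ (by
    rw [← hv', map_add, hv', hv', mul_add])
  refine ⟨⟨φ, fun γ hγ => mul_left_cancel₀ hϖ ?_⟩, Subtype.ext (AddMonoidHom.ext fun g => (hv' g).symm)⟩
  show ϖ * v _ = ϖ * 0
  rw [← hv', x.2 γ hγ, mul_zero]

variable [IsDiscreteValuationRing 𝒪] {p : ℕ} [hp : Fact p.Prime] [CharP (ResidueField 𝒪) p]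

theorem exists_smul_eq_of_mapHP_eq_zero {ϖ : 𝒪} (hϖ : Irreducible ϖ) (x : HP 𝒪 N)
    (h : mapHP N (residue 𝒪) x = 0) : ∃ x' : HP 𝒪 N, ϖ • x' = x := by
  refine exists_smul_eq_of_forall_dvd hϖ.ne_zero x fun γ => ?_
  rw [← Ideal.mem_span_singleton, ← hϖ.maximalIdeal_eq, ← residue_eq_zero_iff]
  exact DFunLike.congr_fun (congrArg Subtype.val h) (Additive.ofMul γ)

omit hp [CharP (ResidueField 𝒪) p] in
theorem mapHP_smul_uniformizer {ϖ : 𝒪} (hϖ : Irreducible ϖ) (x : HP 𝒪 N) :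
    mapHP N (residue 𝒪) (ϖ • x) = 0 := by
  rw [map_smulₛₗ, (residue_eq_zero_iff ϖ).mpr (hϖ.maximalIdeal_eq ▸ Ideal.mem_span_singleton_self ϖ),
    zero_smul]

omit hp [CharP (ResidueField 𝒪) p] in
theorem residue_ne_of_isUnit_sub {a b : 𝒪} (h : IsUnit (a - b)) :
    residue 𝒪 a ≠ residue 𝒪 b := by
  rw [Ne, ← sub_eq_zero, ← map_sub, residue_eq_zero_iff]
  exact fun hm => (mem_maximalIdeal _).mp hm h

omit hp [CharP (ResidueField 𝒪) p] in
/-- Abstract saturation: injectivity mod `ϖ` gives saturation. -/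
theorem saturated_of_mod {M M' : ℕ} (i : HP 𝒪 M →ₗ[𝒪] HP 𝒪 M') (P : HP 𝒪 M → Prop)
    (hP : ∀ (c : 𝒪) (x : HP 𝒪 M), c ≠ 0 → P (c • x) → P x)
    (hmod : ∀ x, P x → mapHP M' (residue 𝒪) (i x) = 0 → mapHP M (residue 𝒪) x = 0)
    {c : 𝒪} (hc : c ≠ 0) {x : HP 𝒪 M} (hx : P x) {y : HP 𝒪 M'} (hxy : c • y = i x) :
    ∃ x', P x' ∧ c • x' = x := by
  obtain ⟨ϖ, hϖ⟩ := IsDiscreteValuationRing.exists_irreducible 𝒪
  obtain ⟨n, u, rfl⟩ := IsDiscreteValuationRing.eq_unit_mul_pow_irreducible hc hϖ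
  clear hc
  suffices ∃ x', ϖ ^ n • x' = x by
    obtain ⟨x', rfl⟩ := this
    have e : (u : 𝒪) * ϖ ^ n * ((u⁻¹ : 𝒪ˣ) : 𝒪) = ϖ ^ n := by
      rw [mul_comm (u : 𝒪), mul_assoc, Units.mul_inv, mul_one]
    refine ⟨((u⁻¹ : 𝒪ˣ) : 𝒪) • x', hP (u * ϖ ^ n) _ (by simp [hϖ.ne_zero]) ?_, ?_⟩
    · rw [smul_smul, e]; exact hx
    · rw [smul_smul, e]
  have hxy' : ϖ ^ n • ((u : 𝒪) • y) = i x := by rw [smul_smul, mul_comm, hxy]
  revert hxy' hx
  generalize (u : 𝒪) • y = z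
  clear hxy
  intro hx hxy'
  induction n generalizing x z with
  | zero => exact ⟨x, by simp⟩
  | succ n ih =>
    obtain ⟨x', hx'⟩ := exists_smul_eq_of_mapHP_eq_zero hϖ x (hmod x hx (by
      rw [← hxy', pow_succ', ← smul_smul, mapHP_smul_uniformizer hϖ]))
    have hPx' : P x' := hP ϖ x' hϖ.ne_zero (hx' ▸ hx)
    obtain ⟨x'', hx''⟩ := ih z hPx' (by
      refine hp_smul_cancel hϖ.ne_zero ?_
      rw [← map_smul, hx', ← hxy', smul_smul, ← pow_succ'])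
    exact ⟨x'', by rw [pow_succ', ← smul_smul, hx'', hx']⟩

omit hp [CharP (ResidueField 𝒪) p] [IsDiscreteValuationRing 𝒪] in
theorem eigen_of_smul [Fact l.Prime] {c a : 𝒪} (hc : c ≠ 0) {x : HP 𝒪 N}
    (h : heckeP 𝒪 N l (c • x) = a • (c • x)) : heckeP 𝒪 N l x = a • x := by
  rw [map_smul, smul_comm] at h
  exact hp_smul_cancel hc h

omit hp [CharP (ResidueField 𝒪) p] in
theorem eq_zero_of_forall_pow_dvd {ϖ a : 𝒪} (hϖ : Irreducible ϖ) (h : ∀ n, ϖ ^ n ∣ a) : a = 0 := by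
  by_contra ha
  obtain ⟨n, u, rfl⟩ := IsDiscreteValuationRing.eq_unit_mul_pow_irreducible ha hϖ
  obtain ⟨b, hb⟩ := h (n + 1)
  refine hϖ.not_isUnit (isUnit_of_mul_isUnit_left (y := b) ?_)
  have : (u : 𝒪) = ϖ * b := mul_right_cancel₀ (pow_ne_zero n hϖ.ne_zero) (by rw [hb, pow_succ]; ring)
  exact this ▸ u.isUnit

variable [NeZero N] [hq : Fact q.Prime] [hl : Fact l.Prime]

/-- **`raiseTwo` is saturated on non-Eisenstein eigenvectors.** -/
theorem raiseTwo_saturated (hp2 : p ≠ 2) (hpq : p ≠ q) (hqN : ¬ q ∣ N) (hlN : ¬ l ∣ N)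
    (hlq : ¬ l ∣ q) {a : 𝒪} (ha : IsUnit (a - ((l + 1 : ℕ) : 𝒪))) {c : 𝒪} (hc : c ≠ 0)
    {x : HP 𝒪 N} (hx : heckeP 𝒪 N l x = a • x) {y : HP 𝒪 (N * q * q)}
    (hxy : c • y = raiseTwo 𝒪 N q x) :
    ∃ x' : HP 𝒪 N, c • x' = x ∧ raiseTwo 𝒪 N q x' = y := by
  obtain ⟨x', -, hx'⟩ := saturated_of_mod (raiseTwo 𝒪 N q)
    (fun x => heckeP 𝒪 N l x = a • x) (fun c x hc h => eigen_of_smul hc h)
    (fun x hx h0 => eq_zero_of_raiseTwo (a := residue 𝒪 a) hp2 hpq hqN hlN hlq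
      (by rw [← mapHP_heckeP, hx, map_smulₛₗ])
      (by simpa using residue_ne_of_isUnit_sub ha) (by rw [← mapHP_raiseTwo, h0])) hc hx hxy
  refine ⟨x', hx', hp_smul_cancel hc ?_⟩
  rw [← map_smul, hx', hxy]

/-- **`raiseOne` is saturated on non-Eisenstein eigenvectors**, also for `q = p`. -/
theorem raiseOne_saturated (hp2 : p ≠ 2) (hqN : ¬ q ∣ N) (hlN : ¬ l ∣ N)
    {a α : 𝒪} (ha : IsUnit (a - ((l + 1 : ℕ) : 𝒪))) {c : 𝒪} (hc : c ≠ 0)
    {x : HP 𝒪 N} (hx : heckeP 𝒪 N l x = a • x) {y : HP 𝒪 (N * q)}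
    (hxy : c • y = raiseOne 𝒪 N q α x) :
    ∃ x' : HP 𝒪 N, c • x' = x ∧ raiseOne 𝒪 N q α x' = y := by
  obtain ⟨x', -, hx'⟩ := saturated_of_mod (raiseOne 𝒪 N q α)
    (fun x => heckeP 𝒪 N l x = a • x) (fun c x hc h => eigen_of_smul hc h)
    (fun x hx h0 => eq_zero_of_raiseOne (a := residue 𝒪 a) (α := residue 𝒪 α) hp2 hqN hlN
      (by rw [← mapHP_heckeP, hx, map_smulₛₗ])
      (by simpa using residue_ne_of_isUnit_sub ha) (by rw [← mapHP_raiseOne, h0])) hc hx hxy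
  refine ⟨x', hx', hp_smul_cancel hc ?_⟩
  rw [← map_smul, hx', hxy]

omit hl in
/-- `raiseTwo` is injective on non-Eisenstein eigenvectors. -/
theorem raiseTwo_eq_zero [Fact l.Prime] (hp2 : p ≠ 2) (hpq : p ≠ q) (hqN : ¬ q ∣ N)
    (hlN : ¬ l ∣ N) (hlq : ¬ l ∣ q) {a : 𝒪} (ha : IsUnit (a - ((l + 1 : ℕ) : 𝒪)))
    {x : HP 𝒪 N} (hx : heckeP 𝒪 N l x = a • x) (h : raiseTwo 𝒪 N q x = 0) : x = 0 := by
  obtain ⟨ϖ, hϖ⟩ := IsDiscreteValuationRing.exists_irreducible 𝒪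
  refine Subtype.ext (AddMonoidHom.ext fun g => ?_)
  have : ∀ n, ϖ ^ n ∣ (x : Hom1 N 𝒪) g := fun n => by
    obtain ⟨x', hx', -⟩ := raiseTwo_saturated hp2 hpq hqN hlN hlq ha
      (pow_ne_zero n hϖ.ne_zero) hx (y := 0) (by rw [smul_zero, h])
    exact ⟨(x' : Hom1 N 𝒪) g, by rw [← hx']; rfl⟩
  exact eq_zero_of_forall_pow_dvd hϖ this

omit hl in
/-- `raiseOne` is injective on non-Eisenstein eigenvectors. -/
theorem raiseOne_eq_zero [Fact l.Prime] (hp2 : p ≠ 2) (hqN : ¬ q ∣ N) (hlN : ¬ l ∣ N) {a α : 𝒪}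
    (ha : IsUnit (a - ((l + 1 : ℕ) : 𝒪))) {x : HP 𝒪 N} (hx : heckeP 𝒪 N l x = a • x)
    (h : raiseOne 𝒪 N q α x = 0) : x = 0 := by
  obtain ⟨ϖ, hϖ⟩ := IsDiscreteValuationRing.exists_irreducible 𝒪
  refine Subtype.ext (AddMonoidHom.ext fun g => ?_)
  have : ∀ n, ϖ ^ n ∣ (x : Hom1 N 𝒪) g := fun n => by
    obtain ⟨x', hx', -⟩ := raiseOne_saturated hp2 hqN hlN ha
      (pow_ne_zero n hϖ.ne_zero) hx (y := 0) (α := α) (by rw [smul_zero, h])
    exact ⟨(x' : Hom1 N 𝒪) g, by rw [← hx']; rfl⟩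
  exact eq_zero_of_forall_pow_dvd hϖ this

end Fermat.Agent.CongMod
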