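/-
Growth of the congruence module under level raising (owner: helper91).

`𝒪` is a DVR of characteristic zero with residue characteristic an odd prime `p`, `q ∤ N` a prime,
`L₀` a saturated lattice of eigenvectors at level `N` (`T_q = t`, and `T_l = a` for one auxiliary
`l` with `a - (l + 1)` a unit), and `L₁` a lattice of the same rank at the raised level containing
the image of `L₀`.

* `length_congModule_raiseTwo` (`N → N q q`, `q ≠ p`): `L₁` is the image, and the length of the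
  congruence module grows by `rank · ord ((q - 1) ((q + 1)² - t²))`;
* `length_congModule_raiseOne` (`N → N q`, any `q`, e.g. `q = p`): it grows by
  `rank · ord ((q - 1) (α² - 1))`.
-/
import Fermat.Agent.CongMod.Saturation
import Fermat.Agent.NumCrit.ModuleVariant
import Mathlib.LinearAlgebra.FreeModule.PID
import Mathlib.LinearAlgebra.Dimension.Torsion.Finite
import Mathlib.LinearAlgebra.Dimension.RankNullity

set_option autoImplicit false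

noncomputable section

open CongruenceSubgroup Function IsLocalRing
open scoped MatrixGroups

namespace Fermat.Agent.CongMod

open LR HK NumCrit

variable {𝒪 : Type*} [CommRing 𝒪] [IsDomain 𝒪] [IsDiscreteValuationRing 𝒪]

omit [IsDiscreteValuationRing 𝒪] in
instance hpTorsionFree (N : ℕ) : Module.IsTorsionFree 𝒪 (HP 𝒪 N) :=
  Module.IsTorsionFree.of_smul_eq_zero fun c x h => or_iff_not_imp_left.mpr fun hc =>
    hp_smul_cancel hc (by rw [h, smul_zero])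

instance hpFinite (N : ℕ) [NeZero N] : Module.Finite 𝒪 (HP 𝒪 N) :=
  MF.PeriodGamma.finite_parabolicHoms (Gamma0 N) 𝒪

instance hpFree (N : ℕ) [NeZero N] : Module.Free 𝒪 (HP 𝒪 N) :=
  Module.free_of_finite_type_torsion_free'

section General

variable {M M₁ : Type*} [AddCommGroup M] [Module 𝒪 M] [Module.Finite 𝒪 M] [Module.Free 𝒪 M]
  [AddCommGroup M₁] [Module 𝒪 M₁] [Module.Finite 𝒪 M₁] [Module.Free 𝒪 M₁]

omit [Module.Finite 𝒪 M] [Module.Free 𝒪 M] [Module.Free 𝒪 M₁] in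
/-- A saturated map between lattices of equal rank is onto. -/
theorem map_eq_of_saturated (i : M →ₗ[𝒪] M₁) (L₀ : Submodule 𝒪 M) (L₁ : Submodule 𝒪 M₁)
    (hle : ∀ x ∈ L₀, i x ∈ L₁) (hinj : ∀ x ∈ L₀, i x = 0 → x = 0)
    (hrank : Module.finrank 𝒪 L₁ = Module.finrank 𝒪 L₀)
    (hsat : ∀ (c : 𝒪) (x : M) (y : M₁), c ≠ 0 → x ∈ L₀ → c • y = i x → ∃ x' ∈ L₀, i x' = y) :
    L₀.map i = L₁ := by
  have hmap : L₀.map i ≤ L₁ := by
    rintro _ ⟨x, hx, rfl⟩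
    exact hle x hx
  refine le_antisymm hmap fun y hy => ?_
  let g : L₀ →ₗ[𝒪] L₁ := (i.comp L₀.subtype).codRestrict L₁ fun x => hle x x.2
  have hg : Injective g := (injective_iff_map_eq_zero g).mpr fun x h =>
    Subtype.ext (hinj x x.2 (congrArg Subtype.val h))
  have e : Module.finrank 𝒪 (L₁ ⧸ LinearMap.range g) = 0 := by
    have h := Submodule.finrank_quotient_add_finrank (LinearMap.range g)
    rw [LinearMap.finrank_range_of_inj hg, hrank] at h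
    omega
  have htor := Module.finrank_eq_zero_iff.mp e
  obtain ⟨c, hc, hcy⟩ := htor (Submodule.Quotient.mk ⟨y, hy⟩)
  rw [← Submodule.Quotient.mk_smul, Submodule.Quotient.mk_eq_zero] at hcy
  obtain ⟨x, hx⟩ := hcy
  obtain ⟨x', hx', rfl⟩ := hsat c (x : M) y hc x.2 (congrArg Subtype.val hx).symm
  exact ⟨x', hx', rfl⟩

omit [Module.Finite 𝒪 M₁] [Module.Free 𝒪 M₁] in
/-- The growth of congruence modules along a map that is only injective on the lattice. -/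
theorem length_congModule_eq_add (B₀ : M →ₗ[𝒪] M →ₗ[𝒪] 𝒪) (B₁ : M₁ →ₗ[𝒪] M₁ →ₗ[𝒪] 𝒪)
    (L₀ : Submodule 𝒪 M) (L₁ : Submodule 𝒪 M₁) (i : M →ₗ[𝒪] M₁)
    (hinj : ∀ x ∈ L₀, i x = 0 → x = 0) (hL : L₀.map i = L₁) {c : 𝒪}
    (hB : ∀ x ∈ L₀, ∀ y ∈ L₀, B₁ (i x) (i y) = c * B₀ x y)
    (hB₀ : Injective (gram B₀ L₀)) :
    Module.length 𝒪 (CongModule B₁ L₁) =
      Module.length 𝒪 (CongModule B₀ L₀) + Module.finrank 𝒪 L₀ * Ring.ord 𝒪 c := by
  let B' : L₀ →ₗ[𝒪] L₀ →ₗ[𝒪] 𝒪 := B₀.compl₁₂ L₀.subtype L₀.subtype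
  have hB' : Injective (gram B' (⊤ : Submodule 𝒪 L₀)) := by
    intro x y h
    refine Subtype.ext (hB₀ (LinearMap.ext fun z => ?_))
    exact LinearMap.congr_fun h ⟨z, Submodule.mem_top⟩
  have h1 := length_congModule_levelChange B' B₁ ⊤ L₁ (i.comp L₀.subtype)
    ((injective_iff_map_eq_zero _).mpr fun x h => Subtype.ext (hinj x x.2 h))
    (by rw [Submodule.map_comp, Submodule.map_subtype_top, hL])
    (c := c) (fun x _ y _ => hB x x.2 y y.2) hB'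
  have h2 := length_congModule_levelChange B' B₀ ⊤ L₀ L₀.subtype L₀.injective_subtype
    (Submodule.map_subtype_top L₀) (c := 1) (fun x _ y _ => (one_mul _).symm) hB'
  rw [h1, h2, Ring.ord_one, mul_zero, add_zero, finrank_top]

end General

variable [CharZero 𝒪] {p : ℕ} [hp : Fact p.Prime] [CharP (ResidueField 𝒪) p] {N q l : ℕ}
  [NeZero N] [hq : Fact q.Prime] [hl : Fact l.Prime]

omit hl [CharZero 𝒪] in
theorem natCast_isUnit (hpq : p ≠ q) : IsUnit (q : 𝒪) := by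
  by_contra h
  have h' : residue 𝒪 (q : 𝒪) = 0 :=
    (residue_eq_zero_iff _).mpr ((mem_maximalIdeal _).mpr h)
  rw [map_natCast, CharP.cast_eq_zero_iff (ResidueField 𝒪) p] at h'
  exact hpq ((Nat.prime_dvd_prime_iff_eq hp.out hq.out).mp h')

/-- **Level raising `N → N q q`, `q ≠ p`.** -/
theorem length_congModule_raiseTwo [NeZero q] (hp2 : p ≠ 2) (hpq : p ≠ q) (hqN : ¬ q ∣ N)
    (hlN : ¬ l ∣ N) (hlq : ¬ l ∣ q) {a t : 𝒪} (ha : IsUnit (a - ((l + 1 : ℕ) : 𝒪)))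
    (L₀ : Submodule 𝒪 (HP 𝒪 N)) (L₁ : Submodule 𝒪 (HP 𝒪 (N * q * q)))
    (hl₀ : ∀ x ∈ L₀, heckeP 𝒪 N l x = a • x) (ht : ∀ x ∈ L₀, heckeP 𝒪 N q x = t • x)
    (hsat₀ : ∀ (c : 𝒪) (x : HP 𝒪 N), c ≠ 0 → c • x ∈ L₀ → x ∈ L₀)
    (hle : ∀ x ∈ L₀, raiseTwo 𝒪 N q x ∈ L₁)
    (hrank : Module.finrank 𝒪 L₁ = Module.finrank 𝒪 L₀)
    (hB₀ : Injective (gram (pairP 𝒪 N) L₀)) :
    L₀.map (raiseTwo 𝒪 N q) = L₁ ∧
    Module.length 𝒪 (CongModule (pairP 𝒪 (N * q * q)) L₁) =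
      Module.length 𝒪 (CongModule (pairP 𝒪 N) L₀) + Module.finrank 𝒪 L₀ *
        Ring.ord 𝒪 (((q : 𝒪) - 1) * (((q : 𝒪) + 1) ^ 2 - t ^ 2)) := by
  have hinj : ∀ x ∈ L₀, raiseTwo 𝒪 N q x = 0 → x = 0 := fun x hx h =>
    raiseTwo_eq_zero hp2 hpq hqN hlN hlq ha (hl₀ x hx) h
  have hL : L₀.map (raiseTwo 𝒪 N q) = L₁ := by
    refine map_eq_of_saturated _ L₀ L₁ hle hinj hrank fun c x y hc hx hxy => ?_
    obtain ⟨x', hx', he⟩ := raiseTwo_saturated hp2 hpq hqN hlN hlq ha hc (hl₀ x hx) hxy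
    exact ⟨x', hsat₀ c x' hc (hx' ▸ hx), he⟩
  refine ⟨hL, ?_⟩
  rw [length_congModule_eq_add (pairP 𝒪 N) (pairP 𝒪 (N * q * q)) L₀ L₁ (raiseTwo 𝒪 N q) hinj hL
    (c := (q : 𝒪) * ((q : 𝒪) - 1) * (((q : 𝒪) + 1) ^ 2 - t ^ 2))
    (fun x hx y hy => pairP_raiseTwo hqN (ht x hx) (ht y hy)) hB₀]
  congr 2
  have hu := natCast_isUnit (𝒪 := 𝒪) (p := p) hpq
  obtain ⟨u, hu⟩ := hu
  refine congrArg (fun I => Module.length 𝒪 (𝒪 ⧸ I)) ?_
  rw [mul_assoc, ← hu, Ideal.span_singleton_mul_left_unit u.isUnit]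

/-- **Level raising `N → N q`**, also for `q = p`. -/
theorem length_congModule_raiseOne [NeZero q] (hp2 : p ≠ 2) (hqN : ¬ q ∣ N) (hlN : ¬ l ∣ N)
    {a t α : 𝒪} (ha : IsUnit (a - ((l + 1 : ℕ) : 𝒪))) (hα : α ^ 2 + q = t * α)
    (L₀ : Submodule 𝒪 (HP 𝒪 N)) (L₁ : Submodule 𝒪 (HP 𝒪 (N * q)))
    (hl₀ : ∀ x ∈ L₀, heckeP 𝒪 N l x = a • x) (ht : ∀ x ∈ L₀, heckeP 𝒪 N q x = t • x)
    (hsat₀ : ∀ (c : 𝒪) (x : HP 𝒪 N), c ≠ 0 → c • x ∈ L₀ → x ∈ L₀)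
    (hle : ∀ x ∈ L₀, raiseOne 𝒪 N q α x ∈ L₁)
    (hrank : Module.finrank 𝒪 L₁ = Module.finrank 𝒪 L₀)
    (hB₀ : Injective (gram (pairP 𝒪 N) L₀)) :
    L₀.map (raiseOne 𝒪 N q α) = L₁ ∧
    Module.length 𝒪 (CongModule (pairP 𝒪 (N * q)) L₁) =
      Module.length 𝒪 (CongModule (pairP 𝒪 N) L₀) + Module.finrank 𝒪 L₀ *
        Ring.ord 𝒪 (((q : 𝒪) - 1) * (α ^ 2 - 1)) := by
  have hinj : ∀ x ∈ L₀, raiseOne 𝒪 N q α x = 0 → x = 0 := fun x hx h =>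
    raiseOne_eq_zero hp2 hqN hlN ha (hl₀ x hx) h
  have hL : L₀.map (raiseOne 𝒪 N q α) = L₁ := by
    refine map_eq_of_saturated _ L₀ L₁ hle hinj hrank fun c x y hc hx hxy => ?_
    obtain ⟨x', hx', he⟩ := raiseOne_saturated hp2 hqN hlN ha hc (hl₀ x hx) hxy
    exact ⟨x', hsat₀ c x' hc (hx' ▸ hx), he⟩
  exact ⟨hL, length_congModule_eq_add (pairP 𝒪 N) (pairP 𝒪 (N * q)) L₀ L₁ (raiseOne 𝒪 N q α)
    hinj hL (fun x hx y hy => pairP_raiseOne hqN hα (ht x hx) (ht y hy)) hB₀⟩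

end Fermat.Agent.CongMod
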