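/-
Level raising maps on parabolic homomorphisms and their effect on the intersection pairing
(owner: helper91).

* `raiseTwo N q : H(N) → H(N q q)`, `q ∤ N`: `q res res - res res₂ T_q + res₂ res₂`; it is killed by
  `U_q` and `P(i x, i y) = q (q-1) ((q+1)² - t²) P(x, y)` on `T_q = t` eigenvectors;
* `raiseOne N q α : H(N) → H(N q)`: `α res - res₂`; if `α² - t α + q = 0` it has `U_q = α` and
  `P(j x, j y) = (q-1) (α² - 1) P(x, y)` on eigenvectors.
-/
import Fermat.Agent.CongMod.Transfer
import Fermat.Agent.LR.Pairing.Gamma0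

set_option autoImplicit false

noncomputable section

open CongruenceSubgroup Function Matrix
open scoped MatrixGroups

namespace Fermat.Agent.CongMod

open LR HK
open ModularCurve.Period (parabolicHoms)

variable (R : Type*) [CommRing R] (N q l : ℕ)

/-- Parabolic homomorphisms `Γ₀(N) → R`. -/
abbrev HP := parabolicHoms R (Gamma0 N) R

/-- `res` on parabolic homomorphisms. -/
def resP : HP R N →ₗ[R] HP R (N * q) where
  toFun a := ⟨res N q (a : Hom1 N R), Pairing.res_mem_parabolicHoms N q a⟩
  map_add' _ _ := rfl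
  map_smul' _ _ := rfl

/-- `res₂` on parabolic homomorphisms. -/
def res₂P : HP R N →ₗ[R] HP R (N * q) where
  toFun a := ⟨res₂ N q (a : Hom1 N R), Pairing.res₂_mem_parabolicHoms N q a⟩
  map_add' _ _ := rfl
  map_smul' _ _ := rfl

/-- The Hecke operator on parabolic homomorphisms. -/
def heckeP [Fact l.Prime] : HP R N →ₗ[R] HP R N :=
  (heckeHom N l R R).restrict fun _ h => heckeHom_mem_parabolicHoms h

variable {R N q l}

@[simp] theorem coe_resP (a : HP R N) : (resP R N q a : Hom1 (N * q) R) = res N q (a : Hom1 N R) :=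
  rfl

@[simp] theorem coe_res₂P (a : HP R N) :
    (res₂P R N q a : Hom1 (N * q) R) = res₂ N q (a : Hom1 N R) := rfl

@[simp] theorem coe_heckeP [Fact l.Prime] (a : HP R N) :
    (heckeP R N l a : Hom1 N R) = heckeHom N l R R (a : Hom1 N R) := rfl

theorem heckeP_res [Fact q.Prime] (hqN : ¬ q ∣ N) (a : HP R N) :
    heckeP R (N * q) q (resP R N q a) = resP R N q (heckeP R N q a) - res₂P R N q a :=
  Subtype.ext (by
    rw [Submodule.coe_sub, coe_heckeP, coe_resP, coe_resP, coe_res₂P, coe_heckeP,
      ← heckeHom_res hqN, add_sub_cancel_right])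

theorem heckeP_res₂ [Fact q.Prime] (a : HP R N) :
    heckeP R (N * q) q (res₂P R N q a) = (q : R) • resP R N q a :=
  Subtype.ext (by
    rw [Submodule.coe_smul, coe_heckeP, coe_res₂P, coe_resP, heckeHom_res₂, Nat.cast_smul_eq_nsmul])

theorem heckeP_res_comm [Fact l.Prime] (hlq : ¬ l ∣ q) (a : HP R N) :
    heckeP R (N * q) l (resP R N q a) = resP R N q (heckeP R N l a) :=
  Subtype.ext (heckeHom_res_comm (R := R) hlq (a : Hom1 N R))

theorem heckeP_res₂_comm [Fact l.Prime] [NeZero q] (hlq : ¬ l ∣ q) (a : HP R N) :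
    heckeP R (N * q) l (res₂P R N q a) = res₂P R N q (heckeP R N l a) :=
  Subtype.ext (heckeHom_res₂_comm (R := R) hlq (a : Hom1 N R))

/-! ### The maps -/

variable (R N q) in
/-- The map from level `N` to level `N q q` with `U_q = 0`. -/
def raiseTwo [Fact q.Prime] : HP R N →ₗ[R] HP R (N * q * q) :=
  (q : R) • (resP R (N * q) q).comp (resP R N q)
    - ((resP R (N * q) q).comp (res₂P R N q)).comp (heckeP R N q)
    + (res₂P R (N * q) q).comp (res₂P R N q)

theorem raiseTwo_apply [Fact q.Prime] (a : HP R N) :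
    raiseTwo R N q a = (q : R) • resP R (N * q) q (resP R N q a)
      - resP R (N * q) q (res₂P R N q (heckeP R N q a))
      + res₂P R (N * q) q (res₂P R N q a) := rfl

variable (R N q) in
/-- The map from level `N` to level `N q` with `U_q = α`. -/
def raiseOne (α : R) : HP R N →ₗ[R] HP R (N * q) := α • resP R N q - res₂P R N q

theorem raiseOne_apply (α : R) (a : HP R N) :
    raiseOne R N q α a = α • resP R N q a - res₂P R N q a := rfl

/-- `U_q` commutes with `res` once `q` divides the level. -/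
theorem heckeP_res_of_dvd [Fact q.Prime] (hqN : q ∣ N) (a : HP R N) :
    heckeP R (N * q) q (resP R N q a) = resP R N q (heckeP R N q a) := by
  refine Subtype.ext (AddMonoidHom.ext fun g => ?_)
  obtain ⟨g, rfl⟩ := Additive.ofMul.surjective g
  rw [coe_heckeP, coe_resP, coe_resP, coe_heckeP, res_apply, heckeHom_apply, heckeHom_apply,
    ← (upperEquiv (hqN.mul_right q)).sum_comp, ← (upperEquiv hqN).sum_comp]
  refine Finset.sum_congr rfl fun j _ => ?_
  have e := heckeCoc_mul_heckeMat g (upperEquiv (hqN.mul_right q) j)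
  rw [show heckeNext g (upperEquiv (hqN.mul_right q) j) =
    HeckeIdx.upper (N * q) (upperNext (hqN.mul_right q) g j) from
      (upper_upperNext (hqN.mul_right q) g j).symm] at e
  have h := heckeNext_heckeCoc_eq (g := inclGamma0 N q g) (i := HeckeIdx.upper N j)
    (i' := HeckeIdx.upper N (upperNext (hqN.mul_right q) g j))
    (h := inclGamma0 N q (heckeCoc g (upperEquiv (hqN.mul_right q) j))) e
  show (a : Hom1 N R) (Additive.ofMul (inclGamma0 N q (heckeCoc g _))) =
    (a : Hom1 N R) (Additive.ofMul (heckeCoc (inclGamma0 N q g) (HeckeIdx.upper N j)))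
  rw [h.2]

/-- The image of `raiseTwo` is killed by `U_q`. -/
theorem heckeP_raiseTwo [Fact q.Prime] (hqN : ¬ q ∣ N) (a : HP R N) :
    heckeP R (N * q * q) q (raiseTwo R N q a) = 0 := by
  rw [raiseTwo_apply, map_add, map_sub, map_smul, heckeP_res_of_dvd (dvd_mul_left q N),
    heckeP_res hqN, heckeP_res_of_dvd (dvd_mul_left q N), heckeP_res₂, heckeP_res₂, map_sub,
    map_smul]
  module

/-- `T_l` commutes with `raiseTwo`. -/
theorem heckeP_raiseTwo_comm [Fact q.Prime] [Fact l.Prime] (hlq : ¬ l ∣ q) (a : HP R N)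
    (hcomm : heckeP R N l (heckeP R N q a) = heckeP R N q (heckeP R N l a)) :
    heckeP R (N * q * q) l (raiseTwo R N q a) = raiseTwo R N q (heckeP R N l a) := by
  have : NeZero q := ⟨(Fact.out : q.Prime).ne_zero⟩
  rw [raiseTwo_apply, raiseTwo_apply, map_add, map_sub, map_smul, heckeP_res_comm hlq,
    heckeP_res_comm hlq, heckeP_res_comm hlq, heckeP_res₂_comm hlq, heckeP_res₂_comm hlq,
    heckeP_res₂_comm hlq, hcomm]

/-- On a root `α` of `X² - T_q X + q`, `U_q (raiseOne α a) = α • raiseOne α a`. -/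
theorem heckeP_raiseOne [Fact q.Prime] (hqN : ¬ q ∣ N) {α t : R} (hα : α ^ 2 + q = t * α)
    (a : HP R N) (ha : heckeP R N q a = t • a) :
    heckeP R (N * q) q (raiseOne R N q α a) = α • raiseOne R N q α a := by
  rw [raiseOne_apply, map_sub, map_smul, heckeP_res hqN, heckeP_res₂, ha, map_smul, smul_sub,
    smul_sub, smul_smul, smul_smul, mul_comm α t, ← hα, add_smul, sq]
  abel

theorem heckeP_raiseOne_comm [Fact l.Prime] [NeZero q] (hlq : ¬ l ∣ q) (α : R) (a : HP R N) :
    heckeP R (N * q) l (raiseOne R N q α a) = raiseOne R N q α (heckeP R N l a) := by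
  rw [raiseOne_apply, raiseOne_apply, map_sub, map_smul, heckeP_res_comm hlq, heckeP_res₂_comm hlq]

/-! ### Pairings -/

section Pairing

variable [IsAddTorsionFree R]

/-- The intersection pairing at level `N`. -/
abbrev pairP (R : Type*) [CommRing R] [IsAddTorsionFree R] (N : ℕ) [NeZero N] :
    HP R N →ₗ[R] HP R N →ₗ[R] R :=
  Pairing.pairing (Gamma0 N) R

theorem pairP_resP_left [NeZero N] [NeZero q] (a c : HP R N) (x : HP R (N * q))
    (hc : (c : Hom1 N R) = cor N q (x : Hom1 (N * q) R)) :
    pairP R (N * q) (resP R N q a) x = pairP R N a c :=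
  Pairing.pairing_res_cor_gamma0 N q a c _ x rfl hc

theorem pairP_res_res [NeZero N] [NeZero q] {n : ℕ}
    (hn : ∀ b : HP R N, cor N q (res N q (b : Hom1 N R)) = n • (b : Hom1 N R)) (a b : HP R N) :
    pairP R (N * q) (resP R N q a) (resP R N q b) = (n : R) * pairP R N a b := by
  rw [pairP_resP_left a ((n : R) • b) _ (by
    rw [Submodule.coe_smul, Nat.cast_smul_eq_nsmul, coe_resP, hn]), map_smul, smul_eq_mul]

variable [NeZero N] [hq : Fact q.Prime]

theorem pairP_res_res_prime (hqN : ¬ q ∣ N) [NeZero q] (a b : HP R N) :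
    pairP R (N * q) (resP R N q a) (resP R N q b) = ((q + 1 : ℕ) : R) * pairP R N a b :=
  pairP_res_res (fun _ => cor_res_of_not_dvd hq.out hqN _) a b

theorem pairP_res_res_level [NeZero q] (a b : HP R (N * q)) :
    pairP R (N * q * q) (resP R (N * q) q a) (resP R (N * q) q b) =
      (q : R) * pairP R (N * q) a b :=
  pairP_res_res (fun _ => cor_res_of_dvd hq.out (dvd_mul_left q N) _) a b

theorem pairP_res_res₂ (hqN : ¬ q ∣ N) [NeZero q] (a b : HP R N) :
    pairP R (N * q) (resP R N q a) (res₂P R N q b) = pairP R N a (heckeP R N q b) :=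
  pairP_resP_left a _ _ (by rw [coe_heckeP, coe_res₂P, res_heckeDeg_eq, heckeHom_eq_heckeDeg hqN])

theorem pairP_res₂_res₂ (hqN : ¬ q ∣ N) [NeZero q] (a b : HP R N) :
    pairP R (N * q) (res₂P R N q a) (res₂P R N q b) = ((q + 1 : ℕ) : R) * pairP R N a b := by
  have h := hq.out.coprime_iff_not_dvd.mpr hqN
  have e : ∀ x : HP R N, (res₂P R N q x : Hom1 (N * q) R) =
      atkin N q h (resP R N q x : Hom1 (N * q) R) := fun x => (atkin_res N q h _).symm
  rw [Pairing.pairing_conj (Pairing.isConjBy_atkinGamma0 N q h) (resP R N q a) (resP R N q b) _ _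
    (fun γ => by rw [e]; rfl) (fun γ => by rw [e]; rfl)]
  exact pairP_res_res_prime hqN a b

theorem pairP_res₂_res (hqN : ¬ q ∣ N) [NeZero q] (a b : HP R N) :
    pairP R (N * q) (res₂P R N q a) (resP R N q b) = -pairP R N b (heckeP R N q a) := by
  rw [Pairing.pairing_skew, pairP_res_res₂ hqN]

variable [NeZero q] {t : R} {x y : HP R N}

/-- The two components of an iterated degeneracy pairing. -/
theorem pairP_res_res₂res₂ (hqN : ¬ q ∣ N) (u : HP R (N * q)) (hy : heckeP R N q y = t • y) :
    pairP R (N * q * q) (resP R (N * q) q u) (res₂P R (N * q) q (res₂P R N q y)) =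
      pairP R (N * q) u (t • res₂P R N q y - resP R N q y) :=
  pairP_resP_left u _ _ (by
    rw [coe_res₂P, coe_res₂P, Submodule.coe_sub, Submodule.coe_smul, coe_res₂P, coe_resP,
      eq_sub_iff_add_eq.mpr (cor_res₂_res₂ hq.out hqN (y : Hom1 N R)),
      ← heckeHom_eq_heckeDeg (R := R) hqN, ← coe_heckeP, hy]
    rfl)

/-- Conjugation by an Atkin–Lehner element at `q²` exchanges the two iterated degeneracy maps. -/
theorem pairP_res₂res₂_res₂res₂ (hqN : ¬ q ∣ N) (a b : HP R N) :
    pairP R (N * q * q) (res₂P R (N * q) q (res₂P R N q a)) (res₂P R (N * q) q (res₂P R N q b)) =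
      pairP R (N * q * q) (resP R (N * q) q (resP R N q a))
        (resP R (N * q) q (resP R N q b)) := by
  have h : (q * q).Coprime N :=
    (hq.out.coprime_iff_not_dvd.mpr hqN).mul_left (hq.out.coprime_iff_not_dvd.mpr hqN)
  have hlev : Gamma0 (N * q * q) = Gamma0 (N * (q * q)) := by rw [mul_assoc]
  have hbij := Pairing.atkinGamma0_bijective N (q * q) h
  let e : Gamma0 (N * q * q) ≃* Gamma0 (N * q * q) :=
    (MulEquiv.subgroupCongr hlev).trans
      ((MulEquiv.ofBijective _ hbij).trans (MulEquiv.subgroupCongr hlev).symm)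
  have he : Pairing.IsConjBy (Pairing.atkinMat N (q * q) h) e :=
    ⟨(Pairing.isConjBy_atkinGamma0 N (q * q) h).det_pos,
      fun γ => Pairing.atkinGamma0_mul_atkinMat N (q * q) h (MulEquiv.subgroupCongr hlev γ)⟩
  have key : ∀ (z : HP R N) (γ : Gamma0 (N * q * q)),
      (res₂P R (N * q) q (res₂P R N q z) : Hom1 (N * q * q) R) (Additive.ofMul γ) =
        (resP R (N * q) q (resP R N q z) : Hom1 (N * q * q) R) (Additive.ofMul (e γ)) := by
    intro z γ
    have hδ : deltaGamma0 N q (deltaGamma0 (N * q) q γ) =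
        deltaGamma0 N (q * q) (MulEquiv.subgroupCongr hlev γ) := by
      refine eq_of_matOf_eq (mul_left_cancel_diag (mul_ne_zero hq.out.ne_zero hq.out.ne_zero) ?_)
      rw [matOf_deltaGamma0]
      have hd : diagMat (q * q) = diagMat q * diagMat q := by
        ext i j
        fin_cases i <;> fin_cases j <;> simp [Matrix.mul_apply, Fin.sum_univ_two]
      rw [hd, ← Matrix.mul_assoc, matOf_deltaGamma0, Matrix.mul_assoc, matOf_deltaGamma0,
        ← Matrix.mul_assoc]
      rfl
    show (z : Hom1 N R) (Additive.ofMul (deltaGamma0 N q (deltaGamma0 (N * q) q γ))) =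
      (z : Hom1 N R) (Additive.ofMul (atkinAux N (q * q) h *
        deltaGamma0 N (q * q) (MulEquiv.subgroupCongr hlev γ) * (atkinAux N (q * q) h)⁻¹))
    rw [← hδ]
    simp [ofMul_mul, ofMul_inv, map_add, map_neg]
  exact Pairing.pairing_conj he _ _ _ _ (key a) (key b)

/-- **The pairing on the image of `raiseTwo`.** -/
theorem pairP_raiseTwo (hqN : ¬ q ∣ N) (hx : heckeP R N q x = t • x)
    (hy : heckeP R N q y = t • y) :
    pairP R (N * q * q) (raiseTwo R N q x) (raiseTwo R N q y) =
      (q : R) * ((q : R) - 1) * (((q : R) + 1) ^ 2 - t ^ 2) * pairP R N x y := by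
  have aa := pairP_res_res_prime (R := R) hqN
  have bb := pairP_res₂_res₂ (R := R) hqN
  have ab := pairP_res_res₂ (R := R) hqN
  have ba := pairP_res₂_res (R := R) hqN
  have lev := pairP_res_res_level (R := R) (N := N) (q := q)
  have c2 := pairP_res_res₂res₂ (R := R) (N := N) (q := q) (t := t) (y := y) hqN
  have c1 : ∀ u : HP R (N * q),
      pairP R (N * q * q) (res₂P R (N * q) q (res₂P R N q x)) (resP R (N * q) q u) =
        -pairP R (N * q) u (t • res₂P R N q x - resP R N q x) := fun u => by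
    rw [Pairing.pairing_skew, pairP_res_res₂res₂ hqN u hx]
  have swap : pairP R N y x = -pairP R N x y := Pairing.pairing_skew y x
  simp only [raiseTwo_apply, hx, hy, map_add, map_sub, map_smul, LinearMap.add_apply,
    LinearMap.sub_apply, LinearMap.smul_apply, smul_eq_mul, lev, aa, bb, ab, ba, c1, c2,
    pairP_res₂res₂_res₂res₂ hqN, swap]
  push_cast
  ring

/-- **The pairing on the image of `raiseOne`.** -/
theorem pairP_raiseOne (hqN : ¬ q ∣ N) {α : R} (hα : α ^ 2 + q = t * α)
    (hx : heckeP R N q x = t • x) (hy : heckeP R N q y = t • y) :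
    pairP R (N * q) (raiseOne R N q α x) (raiseOne R N q α y) =
      ((q : R) - 1) * (α ^ 2 - 1) * pairP R N x y := by
  simp only [raiseOne_apply, map_sub, map_smul, LinearMap.sub_apply, LinearMap.smul_apply,
    smul_eq_mul, pairP_res_res_prime hqN, pairP_res₂_res₂ hqN, pairP_res_res₂ hqN,
    pairP_res₂_res hqN, hx, hy, Pairing.pairing_skew y x]
  push_cast
  linear_combination (2 * pairP R N x y) * hα

end Pairing

end Fermat.Agent.CongMod
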